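import Mathlib
import Fermat.Prelude.Def_GaloisRep_Adic
import Fermat.Agent.S53.Burnside

/-!
# Trace rigidity for residually absolutely irreducible Galois representations

Let `T` be a local ring and `ρ : GaloisRepAdic T` with absolutely irreducible residual
representation.

* `span_range_eq_top_of_residual_absIrr`: the operators `ρ g` span `End_T V` over `T`
  (Burnside over the residue field + Nakayama).
* `eq_of_forall_trace_mul_eq`: the trace form is perfect on the image of the group algebra:
  `tr (ρ g ∘ f) = tr (ρ g ∘ f')` for all `g` implies `f = f'`.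
* `rho_eq_one_of_forall_trace_mul_eq`: if `tr ρ(g τ) = tr ρ(g)` for all `g` then `ρ τ = 1`.
* `rho_eq_one_of_forall_trace_sub_mem`: the same with congruences modulo all powers of the
  maximal ideal, when `⋂ 𝔪ⁿ = 0`.
-/

set_option autoImplicit false

namespace Fermat.Agent.Lib.GalRep

open IsLocalRing

local notation "GQ" => (AlgebraicClosure ℚ ≃ₐ[ℚ] AlgebraicClosure ℚ)

section Matrix

variable {T : Type*} [CommRing T] [IsLocalRing T] {n : Type*} [Fintype n] [DecidableEq n]

omit [IsLocalRing T] in
/-- A matrix with entries in an ideal `I` lies in `I • ⊤`. -/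
theorem matrix_mem_smul_top_of_forall_mem (I : Ideal T) (X : Matrix n n T)
    (hX : ∀ i j, X i j ∈ I) : X ∈ I • (⊤ : Submodule T (Matrix n n T)) := by
  rw [Matrix.matrix_eq_sum_single X]
  refine Submodule.sum_mem _ fun i _ => Submodule.sum_mem _ fun j _ => ?_
  have h : Matrix.single i j (X i j) = X i j • Matrix.single i j (1 : T) := by
    rw [Matrix.smul_single, smul_eq_mul, mul_one]
  rw [h]
  exact Submodule.smul_mem_smul (hX i j) Submodule.mem_top

/-- **Nakayama for matrix spans**: if the residues of a family of matrices span the matrix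
algebra over the residue field, the family spans the matrix algebra over the local ring. -/
theorem matrix_span_eq_top_of_residue {G : Type*} (M : G → Matrix n n T)
    (h : Submodule.span (ResidueField T)
      (Set.range fun g => (M g).map (residue T)) = ⊤) :
    Submodule.span T (Set.range M) = ⊤ := by
  rw [eq_top_iff]
  refine Submodule.le_of_le_smul_of_le_jacobson_bot (I := maximalIdeal T) Module.Finite.fg_top
    (maximalIdeal_le_jacobson _) ?_
  intro X _
  obtain ⟨c, hc⟩ := Fermat.Agent.S53.exists_finsupp_sum_eq_of_span_eq_top (residue T)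
    residue_surjective (fun g => (M g).map (residue T)) h (X.map (residue T))
  let Y : Matrix n n T := c.sum fun g a => a • M g
  have hY : Y ∈ Submodule.span T (Set.range M) := by
    refine Submodule.sum_mem _ fun g _ => ?_
    exact Submodule.smul_mem _ _ (Submodule.subset_span ⟨g, rfl⟩)
  have hXY : ∀ i j, (X - Y) i j ∈ maximalIdeal T := by
    intro i j
    rw [← residue_eq_zero_iff]
    have h1 : residue T (Y i j) = X.map (residue T) i j := by
      rw [← hc]
      simp only [Y, Finsupp.sum, Matrix.sum_apply, Matrix.smul_apply, map_sum, smul_eq_mul,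
        map_mul, Matrix.map_apply]
    rw [Matrix.sub_apply, map_sub, h1, Matrix.map_apply, sub_self]
  have hX : X = Y + (X - Y) := by abel
  rw [hX]
  exact Submodule.add_mem_sup hY (matrix_mem_smul_top_of_forall_mem _ _ hXY)

end Matrix

variable {T : Type} [CommRing T] [IsLocalRing T]

/-- **Burnside + Nakayama**: for a residually absolutely irreducible representation over a local
ring, the matrices of the `ρ g` (in any basis) span the full matrix algebra. -/
theorem span_range_toMatrix_eq_top_of_residual_absIrr (ρ : GaloisRepAdic T)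
    (habs : ρ.residual.IsAbsolutelyIrreducible) (b : Module.Basis (Fin 2) T ρ.V) :
    Submodule.span T (Set.range fun g : GQ => LinearMap.toMatrix b b (ρ.ρ g)) = ⊤ := by
  classical
  let bk : Module.Basis (Fin 2) (ResidueField T) ρ.residual.V :=
    Algebra.TensorProduct.basis (ResidueField T) b
  have h := Fermat.Agent.S53.span_range_toMatrix_eq_top_of_absIrr ρ.residual habs bk
  apply matrix_span_eq_top_of_residue
  rw [← h]
  congr 1
  ext X
  constructor
  · rintro ⟨g, rfl⟩
    exact ⟨g, LinearMap.toMatrix_baseChange (ResidueField T) (ρ.ρ g) b b⟩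
  · rintro ⟨g, rfl⟩
    exact ⟨g, (LinearMap.toMatrix_baseChange (ResidueField T) (ρ.ρ g) b b).symm⟩

/-- **Burnside + Nakayama**: for a residually absolutely irreducible representation over a local
ring, the operators `ρ g` span `End_T V`. -/
theorem span_range_eq_top_of_residual_absIrr (ρ : GaloisRepAdic T)
    (habs : ρ.residual.IsAbsolutelyIrreducible) :
    Submodule.span T (Set.range ρ.ρ) = (⊤ : Submodule T (Module.End T ρ.V)) := by
  classical
  let b : Module.Basis (Fin 2) T ρ.V := Module.finBasisOfFinrankEq T ρ.V ρ.finrank_eq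
  have h := span_range_toMatrix_eq_top_of_residual_absIrr ρ habs b
  have h2 := Fermat.Agent.S53.span_range_equiv_eq_top (LinearMap.toMatrix b b).symm _ h
  simpa using h2

/-- The trace form is perfect: an endomorphism is determined by the traces of its products with
the `ρ g`. -/
theorem eq_of_forall_trace_mul_eq (ρ : GaloisRepAdic T)
    (habs : ρ.residual.IsAbsolutelyIrreducible) (f f' : Module.End T ρ.V)
    (h : ∀ g : GQ, LinearMap.trace T ρ.V (ρ.ρ g * f) = LinearMap.trace T ρ.V (ρ.ρ g * f')) :
    f = f' := by
  classical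
  -- extend the hypothesis to all endomorphisms
  have hall : ∀ x : Module.End T ρ.V,
      LinearMap.trace T ρ.V (x * f) = LinearMap.trace T ρ.V (x * f') := by
    intro x
    have hx : x ∈ Submodule.span T (Set.range ρ.ρ) := by
      rw [span_range_eq_top_of_residual_absIrr ρ habs]; trivial
    induction hx using Submodule.span_induction with
    | mem x hx => obtain ⟨g, rfl⟩ := hx; exact h g
    | zero => simp
    | add x y _ _ hx hy => rw [add_mul, add_mul, map_add, map_add, hx, hy]
    | smul c x _ hx => rw [smul_mul_assoc, smul_mul_assoc, map_smul, map_smul, hx]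
  let b : Module.Basis (Fin 2) T ρ.V := Module.finBasisOfFinrankEq T ρ.V ρ.finrank_eq
  apply (LinearMap.toMatrix b b).injective
  rw [Matrix.ext_iff_trace_mul_left]
  intro X
  have h1 := hall ((LinearMap.toMatrix b b).symm X)
  rw [LinearMap.trace_eq_matrix_trace T b, LinearMap.trace_eq_matrix_trace T b,
    LinearMap.toMatrix_mul, LinearMap.toMatrix_mul, LinearEquiv.apply_symm_apply] at h1
  exact h1

/-- If `tr ρ(g τ) = tr ρ(g)` for all `g`, then `ρ τ = 1`. -/
theorem rho_eq_one_of_forall_trace_mul_eq (ρ : GaloisRepAdic T)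
    (habs : ρ.residual.IsAbsolutelyIrreducible) (τ : GQ)
    (h : ∀ g : GQ, LinearMap.trace T ρ.V (ρ.ρ (g * τ)) = LinearMap.trace T ρ.V (ρ.ρ g)) :
    ρ.ρ τ = 1 := by
  apply eq_of_forall_trace_mul_eq ρ habs
  intro g
  rw [← map_mul, mul_one]
  exact h g

/-- If `tr ρ(g τ) ≡ tr ρ(g)` modulo every power of the maximal ideal, for all `g`, and
`⋂ 𝔪ⁿ = 0`, then `ρ τ = 1`. -/
theorem rho_eq_one_of_forall_trace_sub_mem
    (hT : ⨅ n : ℕ, maximalIdeal T ^ n = ⊥) (ρ : GaloisRepAdic T)
    (habs : ρ.residual.IsAbsolutelyIrreducible) (τ : GQ)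
    (h : ∀ (n : ℕ) (g : GQ), LinearMap.trace T ρ.V (ρ.ρ (g * τ)) -
      LinearMap.trace T ρ.V (ρ.ρ g) ∈ maximalIdeal T ^ n) :
    ρ.ρ τ = 1 := by
  apply rho_eq_one_of_forall_trace_mul_eq ρ habs
  intro g
  rw [← sub_eq_zero, ← Ideal.mem_bot, ← hT, Ideal.mem_iInf]
  exact fun n => h n g

/-- For a Noetherian local ring the hypothesis `⋂ 𝔪ⁿ = 0` holds (Krull). -/
theorem iInf_maximalIdeal_pow_eq_bot (R : Type*) [CommRing R] [IsLocalRing R]
    [IsNoetherianRing R] : ⨅ n : ℕ, maximalIdeal R ^ n = ⊥ :=
  Ideal.iInf_pow_eq_bot_of_isLocalRing _ (maximalIdeal.isMaximal R).ne_top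

end Fermat.Agent.Lib.GalRep
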