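import Mathlib
import Fermat.Prelude.Def_GaloisRep_Adic
import Fermat.Agent.Lib.GalRep.TraceRigid

/-!
# Carayol's theorem: traces determine residually absolutely irreducible representations

Let `T` be a local ring.

* `exists_conj_of_forall_trace_eq` (matrix form): two matrix representations `M₁ M₂ : G →* Mₙ(T)`
  of a monoid with equal traces, the first of which spans `Mₙ(T)`, are conjugate by an invertible
  matrix.
* `isEquiv_of_forall_trace_eq`: two `GaloisRepAdic T` with equal traces, the first of which is
  residually absolutely irreducible, are equivalent (`GaloisRepAdic.IsEquiv`).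

Ingredients: the trace form on `Mₙ(T)` is perfect (so the kernels on the group algebra agree),
Nakayama, and an explicit Skolem–Noether statement for `Mₙ(T)` over a local ring
(`exists_intertwiner_of_algHom`).
-/

set_option autoImplicit false

namespace Fermat.Agent.Lib.GalRep

open IsLocalRing

local notation "GQ" => (AlgebraicClosure ℚ ≃ₐ[ℚ] AlgebraicClosure ℚ)

section AlgHom

variable {R : Type*} [CommRing R] {G : Type*} [Monoid G] {n : Type*} [Fintype n] [DecidableEq n]

/-- The algebra homomorphism `R[G] → Mₙ(R)` attached to a matrix representation. -/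
noncomputable def evalHom (M : G →* Matrix n n R) : MonoidAlgebra R G →ₐ[R] Matrix n n R :=
  MonoidAlgebra.lift R (Matrix n n R) G M

theorem evalHom_of (M : G →* Matrix n n R) (g : G) :
    evalHom M (MonoidAlgebra.of R G g) = M g := by
  simp [evalHom]

theorem evalHom_surjective (M : G →* Matrix n n R)
    (h : Submodule.span R (Set.range M) = ⊤) : Function.Surjective (evalHom M) := by
  intro X
  have hX : X ∈ Submodule.span R (Set.range M) := by rw [h]; trivial
  induction hX using Submodule.span_induction with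
  | mem x hx => obtain ⟨g, rfl⟩ := hx; exact ⟨_, evalHom_of M g⟩
  | zero => exact ⟨0, map_zero _⟩
  | add x y _ _ hx hy =>
    obtain ⟨a, rfl⟩ := hx
    obtain ⟨b, rfl⟩ := hy
    exact ⟨a + b, map_add _ _ _⟩
  | smul c x _ hx =>
    obtain ⟨a, rfl⟩ := hx
    exact ⟨c • a, map_smul _ _ _⟩

/-- Equal traces on the group give equal traces on the group algebra. -/
theorem trace_evalHom_eq (M₁ M₂ : G →* Matrix n n R)
    (htr : ∀ g, (M₁ g).trace = (M₂ g).trace) (x : MonoidAlgebra R G) :
    (evalHom M₁ x).trace = (evalHom M₂ x).trace := by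
  induction x using MonoidAlgebra.induction_on with
  | of g => rw [evalHom_of, evalHom_of, htr]
  | add x y hx hy => rw [map_add, map_add, Matrix.trace_add, Matrix.trace_add, hx, hy]
  | smul r x hx => rw [map_smul, map_smul, Matrix.trace_smul, Matrix.trace_smul, hx]

/-- If two matrix representations have equal traces and the second one spans the matrix algebra,
then the kernel of the first (on the group algebra) is contained in the kernel of the second. -/
theorem evalHom_eq_zero_of_trace (M₁ M₂ : G →* Matrix n n R)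
    (htr : ∀ g, (M₁ g).trace = (M₂ g).trace)
    (h₂ : Submodule.span R (Set.range M₂) = ⊤) (c : MonoidAlgebra R G)
    (hc : evalHom M₁ c = 0) : evalHom M₂ c = 0 := by
  have key : ∀ X : Matrix n n R, (X * evalHom M₂ c).trace = (X * 0).trace := by
    intro X
    obtain ⟨y, rfl⟩ := evalHom_surjective M₂ h₂ X
    rw [← map_mul, ← trace_evalHom_eq M₁ M₂ htr, map_mul, hc, mul_zero, mul_zero]
  exact Matrix.ext_iff_trace_mul_left.mpr key

/-- The transfer map between two matrix representations with equal traces which both span the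
matrix algebra: the algebra endomorphism of `Mₙ(R)` sending `M₁ g` to `M₂ g`. -/
noncomputable def transfer (M₁ M₂ : G →* Matrix n n R)
    (htr : ∀ g, (M₁ g).trace = (M₂ g).trace)
    (h₁ : Submodule.span R (Set.range M₁) = ⊤) (h₂ : Submodule.span R (Set.range M₂) = ⊤) :
    Matrix n n R →ₐ[R] Matrix n n R :=
  have key : ∀ c : MonoidAlgebra R G,
      evalHom M₂ (Function.surjInv (evalHom_surjective M₁ h₁) (evalHom M₁ c)) = evalHom M₂ c := by
    intro c
    have h := Function.surjInv_eq (evalHom_surjective M₁ h₁) (evalHom M₁ c)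
    have h0 : evalHom M₁ (Function.surjInv (evalHom_surjective M₁ h₁) (evalHom M₁ c) - c) = 0 := by
      rw [map_sub, h, sub_self]
    have h1 := evalHom_eq_zero_of_trace M₁ M₂ htr h₂ _ h0
    rw [map_sub, sub_eq_zero] at h1
    exact h1
  have surj := evalHom_surjective M₁ h₁
  { toFun := fun X => evalHom M₂ (Function.surjInv (evalHom_surjective M₁ h₁) X)
    map_one' := by
      have := key 1
      rwa [map_one, map_one] at this
    map_mul' := fun X Y => by
      obtain ⟨a, rfl⟩ := surj X
      obtain ⟨b, rfl⟩ := surj Y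
      rw [← map_mul, key, key, key, map_mul]
    map_zero' := by
      have := key 0
      rwa [map_zero, map_zero] at this
    map_add' := fun X Y => by
      obtain ⟨a, rfl⟩ := surj X
      obtain ⟨b, rfl⟩ := surj Y
      rw [← map_add, key, key, key, map_add]
    commutes' := fun r => by
      have := key (algebraMap R _ r)
      rwa [AlgHom.commutes, AlgHom.commutes] at this }

theorem transfer_apply (M₁ M₂ : G →* Matrix n n R)
    (htr : ∀ g, (M₁ g).trace = (M₂ g).trace)
    (h₁ : Submodule.span R (Set.range M₁) = ⊤) (h₂ : Submodule.span R (Set.range M₂) = ⊤)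
    (g : G) : transfer M₁ M₂ htr h₁ h₂ (M₁ g) = M₂ g := by
  show evalHom M₂ (Function.surjInv (evalHom_surjective M₁ h₁) (M₁ g)) = M₂ g
  have h := Function.surjInv_eq (evalHom_surjective M₁ h₁) (M₁ g)
  have h0 : evalHom M₁ (Function.surjInv (evalHom_surjective M₁ h₁) (M₁ g) -
      MonoidAlgebra.of R G g) = 0 := by
    rw [map_sub, h, evalHom_of, sub_self]
  have h1 := evalHom_eq_zero_of_trace M₁ M₂ htr h₂ _ h0
  rw [map_sub, sub_eq_zero, evalHom_of] at h1
  exact h1

theorem evalHom_mem_span (M : G →* Matrix n n R) (x : MonoidAlgebra R G) :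
    evalHom M x ∈ Submodule.span R (Set.range M) := by
  induction x using MonoidAlgebra.induction_on with
  | of g => rw [evalHom_of]; exact Submodule.subset_span ⟨g, rfl⟩
  | add x y hx hy => rw [map_add]; exact Submodule.add_mem _ hx hy
  | smul r x hx => rw [map_smul]; exact Submodule.smul_mem _ _ hx

end AlgHom

section Field

variable {k : Type*} [Field k] {G : Type*} [Monoid G] {n : Type*} [Fintype n] [DecidableEq n]

/-- Over a field: if `M₁` spans the matrix algebra and `M₂` has the same traces, then `M₂` spans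
the matrix algebra as well. -/
theorem span_range_eq_top_of_trace_eq_field (M₁ M₂ : G →* Matrix n n k)
    (htr : ∀ g, (M₁ g).trace = (M₂ g).trace)
    (h₁ : Submodule.span k (Set.range M₁) = ⊤) : Submodule.span k (Set.range M₂) = ⊤ := by
  have hsurj := evalHom_surjective M₁ h₁
  obtain ⟨s, hs⟩ := LinearMap.exists_rightInverse_of_surjective (evalHom M₁).toLinearMap
    (LinearMap.range_eq_top.mpr hsurj)
  let ψ : Matrix n n k →ₗ[k] Matrix n n k := (evalHom M₂).toLinearMap ∘ₗ s
  have hinj : Function.Injective ψ := by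
    rw [← LinearMap.ker_eq_bot, LinearMap.ker_eq_bot']
    intro X hX
    have h0 : evalHom M₁ (s X) = 0 :=
      evalHom_eq_zero_of_trace M₂ M₁ (fun g => (htr g).symm) h₁ (s X) hX
    have h1 : evalHom M₁ (s X) = X := by
      have := congrArg (fun f => f X) hs
      simpa using this
    rw [← h1, h0]
  have hsurjψ : Function.Surjective ψ := LinearMap.injective_iff_surjective.mp hinj
  rw [eq_top_iff]
  intro X _
  obtain ⟨Y, rfl⟩ := hsurjψ X
  exact evalHom_mem_span M₂ (s Y)

end Field

section Local

variable {T : Type*} [CommRing T] [IsLocalRing T] {G : Type*} [Monoid G]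
  {n : Type*} [Fintype n] [DecidableEq n]

/-- Reduction of a matrix representation modulo the maximal ideal. -/
noncomputable def residueRep (M : G →* Matrix n n T) : G →* Matrix n n (ResidueField T) :=
  ((residue T).mapMatrix : Matrix n n T →+* Matrix n n (ResidueField T)).toMonoidHom.comp M

theorem residueRep_apply (M : G →* Matrix n n T) (g : G) :
    residueRep M g = (M g).map (residue T) := rfl

theorem span_range_residueRep_eq_top (M : G →* Matrix n n T)
    (h : Submodule.span T (Set.range M) = ⊤) :
    Submodule.span (ResidueField T) (Set.range (residueRep M)) = ⊤ := by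
  rw [eq_top_iff]
  intro Y _
  obtain ⟨X, rfl⟩ : ∃ X : Matrix n n T, X.map (residue T) = Y := by
    refine ⟨Y.map (Function.surjInv (residue_surjective (R := T))), ?_⟩
    ext i j
    simp [Function.surjInv_eq]
  have hX : X ∈ Submodule.span T (Set.range M) := by rw [h]; trivial
  induction hX using Submodule.span_induction with
  | mem x hx =>
    obtain ⟨g, rfl⟩ := hx
    exact Submodule.subset_span ⟨g, rfl⟩
  | zero =>
    have : (0 : Matrix n n T).map (residue T) = 0 := Matrix.map_zero _ (map_zero _)
    rw [this]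
    exact Submodule.zero_mem _
  | add x y _ _ hx hy =>
    have : (x + y).map (residue T) = x.map (residue T) + y.map (residue T) :=
      Matrix.map_add _ (map_add _) x y
    rw [this]
    exact Submodule.add_mem _ (hx trivial) (hy trivial)
  | smul c x _ hx =>
    have : (c • x).map (residue T) = residue T c • x.map (residue T) := by
      ext i j
      simp
    rw [this]
    exact Submodule.smul_mem _ _ (hx trivial)

/-- Over a local ring: if `M₁` spans the matrix algebra and `M₂` has the same traces, then `M₂`
spans the matrix algebra as well. -/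
theorem span_range_eq_top_of_trace_eq (M₁ M₂ : G →* Matrix n n T)
    (htr : ∀ g, (M₁ g).trace = (M₂ g).trace)
    (h₁ : Submodule.span T (Set.range M₁) = ⊤) : Submodule.span T (Set.range M₂) = ⊤ := by
  have h1 := span_range_residueRep_eq_top M₁ h₁
  have htr' : ∀ g, (residueRep M₁ g).trace = (residueRep M₂ g).trace := by
    intro g
    rw [residueRep_apply, residueRep_apply]
    have e1 : ((M₁ g).map (residue T)).trace = residue T (M₁ g).trace :=
      (AddMonoidHom.map_trace (residue T) (M₁ g)).symm
    have e2 : ((M₂ g).map (residue T)).trace = residue T (M₂ g).trace :=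
      (AddMonoidHom.map_trace (residue T) (M₂ g)).symm
    rw [e1, e2, htr]
  have h2 := span_range_eq_top_of_trace_eq_field (residueRep M₁) (residueRep M₂) htr' h1
  exact matrix_span_eq_top_of_residue M₂ h2

end Local


section SkolemNoether

variable {R : Type*} [CommRing R] {n : Type*} [Fintype n] [DecidableEq n]

omit [DecidableEq n] in
/-- Entries of `A * N * B` lie in any ideal containing the entries of `N`. -/
theorem mul_mul_apply_mem (I : Ideal R) (A N B : Matrix n n R) (hN : ∀ i j, N i j ∈ I)
    (i j : n) : (A * N * B) i j ∈ I := by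
  rw [Matrix.mul_apply]
  refine I.sum_mem fun a _ => I.mul_mem_right _ ?_
  rw [Matrix.mul_apply]
  exact I.sum_mem fun b _ => I.mul_mem_left _ (hN b a)

theorem one_eq_sum_single : (1 : Matrix n n R) = ∑ a, Matrix.single a a (1 : R) := by
  ext i j
  rw [Matrix.sum_apply]
  by_cases hij : i = j
  · subst hij
    rw [Matrix.one_apply_eq, Finset.sum_eq_single i]
    · simp
    · intro b _ hb
      simp [hb]
    · simp
  · rw [Matrix.one_apply_ne hij]
    symm
    apply Finset.sum_eq_zero
    intro b _
    by_cases hb : b = i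
    · subst hb
      simp [hij]
    · simp [hb]

variable [IsLocalRing R]

/-- **Skolem–Noether for matrix algebras over a local ring** (explicit form): every `R`-algebra
endomorphism of `Mₙ(R)` is conjugation by an invertible matrix. -/
theorem exists_intertwiner_of_algHom [Nonempty n] (φ : Matrix n n R →ₐ[R] Matrix n n R) :
    ∃ P Q : Matrix n n R, Q * P = 1 ∧ P * Q = 1 ∧ ∀ X, P * X = φ X * P := by
  classical
  obtain ⟨i₀⟩ := ‹Nonempty n›
  set e : Matrix n n R := φ (Matrix.single i₀ i₀ 1) with he
  -- some entry of `e` is a unit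
  have hunit : ∃ i u, IsUnit (e i u) := by
    by_contra hcon
    have hmem : ∀ i j, e i j ∈ maximalIdeal R := fun i j =>
      (mem_maximalIdeal _).mpr fun h => hcon ⟨i, j, h⟩
    have h1 : (1 : Matrix n n R) =
        ∑ a, φ (Matrix.single a i₀ 1) * e * φ (Matrix.single i₀ a 1) := by
      have h2 : ∀ a : n, φ (Matrix.single a i₀ 1) * e * φ (Matrix.single i₀ a 1) =
          φ (Matrix.single a a 1) := by
        intro a
        rw [he, ← map_mul, ← map_mul, Matrix.single_mul_single_same,
          Matrix.single_mul_single_same, mul_one, mul_one]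
      simp_rw [h2]
      rw [← map_sum, ← one_eq_sum_single, map_one]
    have h3 : (1 : Matrix n n R) i₀ i₀ ∈ maximalIdeal R := by
      rw [h1, Matrix.sum_apply]
      exact Ideal.sum_mem _ fun a _ => mul_mul_apply_mem _ _ _ _ hmem _ _
    rw [Matrix.one_apply_eq] at h3
    exact (maximalIdeal.isMaximal R).ne_top ((Ideal.eq_top_iff_one _).mpr h3)
  obtain ⟨i, u, hiu⟩ := hunit
  obtain ⟨ε, hε⟩ := hiu.exists_left_inv
  let P : Matrix n n R := ∑ a, φ (Matrix.single a i₀ 1) * Matrix.single u a 1
  let Q : Matrix n n R := ε • ∑ a, Matrix.single a i 1 * φ (Matrix.single i₀ a 1)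
  have hQP : Q * P = 1 := by
    show (ε • ∑ a, Matrix.single a i 1 * φ (Matrix.single i₀ a 1)) *
      (∑ a, φ (Matrix.single a i₀ 1) * Matrix.single u a 1) = 1
    rw [Matrix.smul_mul, Finset.sum_mul]
    have h4 : ∀ a : n, Matrix.single a i (1 : R) * φ (Matrix.single i₀ a 1) *
        (∑ b, φ (Matrix.single b i₀ 1) * Matrix.single u b 1) =
        Matrix.single a a (e i u) := by
      intro a
      rw [Finset.mul_sum, Finset.sum_eq_single a]
      · rw [mul_assoc, ← mul_assoc (φ _) (φ _), ← map_mul, Matrix.single_mul_single_same,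
          mul_one, ← he, ← mul_assoc, Matrix.single_mul_mul_single, one_mul, mul_one]
      · intro b _ hb
        rw [mul_assoc, ← mul_assoc (φ _) (φ _), ← map_mul,
          Matrix.single_mul_single_of_ne _ _ _ _ (Ne.symm hb) _, map_zero, zero_mul, mul_zero]
      · simp
    simp_rw [h4]
    have h5 : ∀ a : n, Matrix.single a a (e i u) = e i u • Matrix.single a a (1 : R) := by
      intro a
      rw [Matrix.smul_single, smul_eq_mul, mul_one]
    simp_rw [h5]
    rw [← Finset.smul_sum, ← one_eq_sum_single, smul_smul, hε, one_smul]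
  have hPQ : P * Q = 1 := mul_eq_one_comm.mp hQP
  refine ⟨P, Q, hQP, hPQ, fun X => ?_⟩
  -- the intertwining relation on matrix units
  have hsingle : ∀ a b : n, P * Matrix.single a b 1 = φ (Matrix.single a b 1) * P := by
    intro a b
    have l1 : P * Matrix.single a b 1 = φ (Matrix.single a i₀ 1) * Matrix.single u b 1 := by
      show (∑ a', φ (Matrix.single a' i₀ 1) * Matrix.single u a' 1) * Matrix.single a b 1 = _
      rw [Finset.sum_mul, Finset.sum_eq_single a]
      · rw [mul_assoc, Matrix.single_mul_single_same, mul_one]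
      · intro a' _ ha'
        rw [mul_assoc, Matrix.single_mul_single_of_ne _ _ _ _ ha' _, mul_zero]
      · simp
    have l2 : φ (Matrix.single a b 1) * P = φ (Matrix.single a i₀ 1) * Matrix.single u b 1 := by
      show φ (Matrix.single a b 1) * (∑ a', φ (Matrix.single a' i₀ 1) * Matrix.single u a' 1) = _
      rw [Finset.mul_sum, Finset.sum_eq_single b]
      · rw [← mul_assoc, ← map_mul, Matrix.single_mul_single_same, mul_one]
      · intro a' _ ha'
        rw [← mul_assoc, ← map_mul, Matrix.single_mul_single_of_ne _ _ _ _ (Ne.symm ha') _, map_zero,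
          zero_mul]
      · simp
    rw [l1, l2]
  induction X using Matrix.induction_on' with
  | h_zero => rw [mul_zero, map_zero, zero_mul]
  | h_add p q hp hq => rw [mul_add, map_add, add_mul, hp, hq]
  | h_std_basis a b x =>
    have hx : Matrix.single a b x = x • Matrix.single a b (1 : R) := by
      rw [Matrix.smul_single, smul_eq_mul, mul_one]
    rw [hx, Matrix.mul_smul, map_smul, Matrix.smul_mul, hsingle]

end SkolemNoether


section Main

variable {T : Type*} [CommRing T] [IsLocalRing T]

/-- **Carayol's theorem, matrix form.** Two matrix representations over a local ring with equal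
traces, the first of which spans the matrix algebra, are conjugate. -/
theorem exists_conj_of_forall_trace_eq {G : Type*} [Monoid G] {n : Type*} [Fintype n]
    [DecidableEq n] [Nonempty n] (M₁ M₂ : G →* Matrix n n T)
    (htr : ∀ g, (M₁ g).trace = (M₂ g).trace)
    (h₁ : Submodule.span T (Set.range M₁) = ⊤) :
    ∃ P Q : Matrix n n T, Q * P = 1 ∧ P * Q = 1 ∧ ∀ g, P * M₁ g = M₂ g * P := by
  have h₂ := span_range_eq_top_of_trace_eq M₁ M₂ htr h₁
  obtain ⟨P, Q, hQP, hPQ, hint⟩ := exists_intertwiner_of_algHom (transfer M₁ M₂ htr h₁ h₂)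
  refine ⟨P, Q, hQP, hPQ, fun g => ?_⟩
  rw [hint, transfer_apply]

end Main

section Galois

variable {T : Type} [CommRing T] [IsLocalRing T]

/-- The matrix representation of a linear action in a basis. -/
noncomputable def matOfBasis {V : Type} [AddCommGroup V] [Module T V]
    (b : Module.Basis (Fin 2) T V) (ρ : GQ →* Module.End T V) :
    GQ →* Matrix (Fin 2) (Fin 2) T where
  toFun σ := LinearMap.toMatrix b b (ρ σ)
  map_one' := by rw [map_one]; exact LinearMap.toMatrix_one b
  map_mul' σ τ := by rw [map_mul]; exact LinearMap.toMatrix_mul b (ρ σ) (ρ τ)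

omit [IsLocalRing T] in
theorem matOfBasis_apply {V : Type} [AddCommGroup V] [Module T V]
    (b : Module.Basis (Fin 2) T V) (ρ : GQ →* Module.End T V) (σ : GQ) :
    matOfBasis b ρ σ = LinearMap.toMatrix b b (ρ σ) := rfl

/-- **Carayol's theorem.** Two `GaloisRepAdic` over a local ring with equal traces, the first of
which is residually absolutely irreducible, are equivalent. -/
theorem isEquiv_of_forall_trace_eq (ρ₁ ρ₂ : GaloisRepAdic T)
    (habs : ρ₁.residual.IsAbsolutelyIrreducible)
    (htr : ∀ g : GQ, LinearMap.trace T ρ₁.V (ρ₁.ρ g) = LinearMap.trace T ρ₂.V (ρ₂.ρ g)) :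
    ρ₁.IsEquiv ρ₂ := by
  classical
  let b₁ : Module.Basis (Fin 2) T ρ₁.V := Module.finBasisOfFinrankEq T ρ₁.V ρ₁.finrank_eq
  let b₂ : Module.Basis (Fin 2) T ρ₂.V := Module.finBasisOfFinrankEq T ρ₂.V ρ₂.finrank_eq
  have h₁ : Submodule.span T (Set.range (matOfBasis b₁ ρ₁.ρ)) = ⊤ :=
    span_range_toMatrix_eq_top_of_residual_absIrr ρ₁ habs b₁
  have htr' : ∀ g, (matOfBasis b₁ ρ₁.ρ g).trace = (matOfBasis b₂ ρ₂.ρ g).trace := by
    intro g
    rw [matOfBasis_apply, matOfBasis_apply, ← LinearMap.trace_eq_matrix_trace T b₁,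
      ← LinearMap.trace_eq_matrix_trace T b₂]
    exact htr g
  obtain ⟨P, Q, hQP, hPQ, hint⟩ := exists_conj_of_forall_trace_eq _ _ htr' h₁
  have e1 : Matrix.toLin b₁ b₂ P ∘ₗ Matrix.toLin b₂ b₁ Q = LinearMap.id := by
    rw [← Matrix.toLin_mul b₂ b₁ b₂, hPQ, Matrix.toLin_one]
  have e2 : Matrix.toLin b₂ b₁ Q ∘ₗ Matrix.toLin b₁ b₂ P = LinearMap.id := by
    rw [← Matrix.toLin_mul b₁ b₂ b₁, hQP, Matrix.toLin_one]
  refine ⟨{ toLinearEquiv := LinearEquiv.ofLinearMap (Matrix.toLin b₁ b₂ P)
              (Matrix.toLin b₂ b₁ Q) e1 e2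
            map_apply := fun σ x => ?_ }⟩
  show Matrix.toLin b₁ b₂ P (ρ₁.ρ σ x) = ρ₂.ρ σ (Matrix.toLin b₁ b₂ P x)
  have h3 : Matrix.toLin b₁ b₂ P ∘ₗ ρ₁.ρ σ = ρ₂.ρ σ ∘ₗ Matrix.toLin b₁ b₂ P := by
    have l1 : ρ₁.ρ σ = Matrix.toLin b₁ b₁ (matOfBasis b₁ ρ₁.ρ σ) := by
      rw [matOfBasis_apply, Matrix.toLin_toMatrix]
    have l2 : ρ₂.ρ σ = Matrix.toLin b₂ b₂ (matOfBasis b₂ ρ₂.ρ σ) := by
      rw [matOfBasis_apply, Matrix.toLin_toMatrix]
    rw [l1, l2, ← Matrix.toLin_mul b₁ b₁ b₂, ← Matrix.toLin_mul b₁ b₂ b₂, hint]
  exact congrArg (fun f => f x) h3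

end Galois

end Fermat.Agent.Lib.GalRep
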