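import Mathlib
import Fermat.Agent.Lib.GalRep.Carayol

/-!
# The Boston–Lenstra–Ribet theorem (2 invertible) and the Morita step

`A` a commutative ring in which `2` is a unit, `G` a group, `ρ : G →* M₂(A)` a representation
whose image spans `M₂(A)` (e.g. `A` local and `ρ` residually absolutely irreducible, see
`Lib/GalRep/TraceRigid.lean`), `X` an `A`-module with an `A`-linear action `a` of `G` such that
every `g ∈ G` satisfies its "characteristic polynomial" on `X`:
`a g ^ 2 - tr (ρ g) • a g + det (ρ g) = 0`.

* `BLR.polarized`: the polarised Cayley–Hamilton identity on the group algebra;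
* `BLR.act_eq_zero_of_rho_eq_zero`: an element of the group algebra acting as `0` through `ρ`
  acts as `0` on `X`;
* `BLR.psi`, `BLR.exists_algHom`: the action extends to an `A`-algebra homomorphism
  `Ψ : M₂(A) → End_A X` with `Ψ (ρ g) = a g`;
* `BLR.moritaEquiv`, `BLR.psi_moritaEquiv`: a module over `M₂(A)` is two copies of its
  `E₁₁`-part;
* `BLR.exists_equiv`: `X ≅ X₀ × X₀` with `G` acting through the matrices `ρ g`
  (`X ≅ A² ⊗ X₀` as `A[G]`-modules);
* `BLR.exists_equivariant_embedding`: if `X` is finitely generated and faithful, then `A²` (with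
  the action `ρ`) embeds `G`-equivariantly into a finite power of `X`.

No finiteness, no topology, no field hypothesis: everything is an identity in `End_A X`.
-/

set_option autoImplicit false

namespace Fermat.Agent.Lib.GalRep.BLR

open Matrix

variable {A : Type*} [CommRing A] {G : Type*} [Group G]
  (ρ : G →* Matrix (Fin 2) (Fin 2) A)
  {X : Type*} [AddCommGroup X] [Module A X] (a : G →* Module.End A X)

/-- The extension of the action on `X` to the group algebra. -/
noncomputable def actAlg : MonoidAlgebra A G →ₐ[A] Module.End A X :=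
  MonoidAlgebra.lift A (Module.End A X) G a

/-- The trace function on the group algebra. -/
noncomputable def trAlg (x : MonoidAlgebra A G) : A := (evalHom ρ x).trace

theorem actAlg_of (g : G) : actAlg a (MonoidAlgebra.of A G g) = a g :=
  MonoidAlgebra.lift_of a g

theorem trAlg_of (g : G) : trAlg ρ (MonoidAlgebra.of A G g) = (ρ g).trace := by
  rw [trAlg, evalHom_of]

theorem trAlg_add (x y : MonoidAlgebra A G) : trAlg ρ (x + y) = trAlg ρ x + trAlg ρ y := by
  simp only [trAlg, map_add, Matrix.trace_add]

theorem trAlg_smul (c : A) (x : MonoidAlgebra A G) : trAlg ρ (c • x) = c * trAlg ρ x := by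
  simp only [trAlg, map_smul, Matrix.trace_smul, smul_eq_mul]

section CH

variable (hCH : ∀ g : G, a g * a g - (ρ g).trace • a g + (ρ g).det • (1 : Module.End A X) = 0)

include hCH

/-- `det (ρ g) • a g⁻¹ = tr (ρ g) - a g`. -/
theorem det_smul_act_inv (g : G) :
    (ρ g).det • a g⁻¹ = (ρ g).trace • (1 : Module.End A X) - a g := by
  have h := congrArg (fun f => f * a g⁻¹) (hCH g)
  simp only [add_mul, sub_mul, zero_mul, smul_mul_assoc, one_mul] at h
  have h1 : a g * a g⁻¹ = 1 := by rw [← map_mul, mul_inv_cancel, map_one]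
  rw [mul_assoc, h1, mul_one] at h
  rw [eq_sub_iff_add_eq, ← sub_eq_zero]
  rw [← h]
  abel

/-- The polarised Cayley–Hamilton identity for two group elements. -/
theorem polarized_group (g h : G) :
    a g * a h + a h * a g = (ρ g).trace • a h + (ρ h).trace • a g
      + ((ρ (g * h)).trace - (ρ g).trace * (ρ h).trace) • (1 : Module.End A X) := by
  have h1 := det_smul_act_inv ρ a hCH g
  have h2 := det_smul_act_inv ρ a hCH h
  have h3 := det_smul_act_inv ρ a hCH (g * h)
  have h4 : (ρ (g * h)).det • a (g * h)⁻¹ = ((ρ h).det • a h⁻¹) * ((ρ g).det • a g⁻¹) := by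
    rw [_root_.mul_inv_rev, map_mul, map_mul, Matrix.det_mul, smul_mul_smul_comm,
      mul_comm (ρ h).det]
  rw [h4, h1, h2, map_mul a g h] at h3
  simp only [sub_mul, mul_sub, smul_mul_assoc, mul_smul_comm, one_mul, mul_one] at h3
  linear_combination (norm := module) h3

/-- The polarised Cayley–Hamilton identity on the group algebra. -/
theorem polarized (x y : MonoidAlgebra A G) :
    actAlg a x * actAlg a y + actAlg a y * actAlg a x
      = trAlg ρ x • actAlg a y + trAlg ρ y • actAlg a x
        + (trAlg ρ (x * y) - trAlg ρ x * trAlg ρ y) • (1 : Module.End A X) := by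
  induction x using MonoidAlgebra.induction_on with
  | of g =>
    induction y using MonoidAlgebra.induction_on with
    | of h =>
      rw [← map_mul (MonoidAlgebra.of A G) g h, trAlg_of, trAlg_of, trAlg_of, actAlg_of,
        actAlg_of]
      exact polarized_group ρ a hCH g h
    | add y y' hy hy' =>
      simp only [map_add, mul_add, add_mul, trAlg_add]
      linear_combination (norm := module) hy + hy'
    | smul c y hy =>
      simp only [map_smul, mul_smul_comm, smul_mul_assoc, trAlg_smul]
      linear_combination (norm := module) c • hy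
  | add x x' hx hx' =>
    simp only [map_add, mul_add, add_mul, trAlg_add]
    linear_combination (norm := module) hx + hx'
  | smul c x hx =>
    simp only [map_smul, mul_smul_comm, smul_mul_assoc, trAlg_smul]
    linear_combination (norm := module) c • hx

end CH

section Surj

variable (hCH : ∀ g : G, a g * a g - (ρ g).trace • a g + (ρ g).det • (1 : Module.End A X) = 0)
  (h2 : IsUnit (2 : A)) (hsurj : Function.Surjective (evalHom ρ))

include hCH h2 hsurj

/-- **Boston–Lenstra–Ribet, key step**: an element of the group algebra which is killed by `ρ`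
acts as zero on `X`. -/
theorem act_eq_zero_of_rho_eq_zero (x : MonoidAlgebra A G) (hx : evalHom ρ x = 0) :
    actAlg a x = 0 := by
  set r := actAlg a x with hr
  have hT0 : trAlg ρ x = 0 := by rw [trAlg, hx, Matrix.trace_zero]
  have hTxy : ∀ y, trAlg ρ (x * y) = 0 := by
    intro y
    rw [trAlg, map_mul, hx, zero_mul, Matrix.trace_zero]
  have key : ∀ y, r * actAlg a y + actAlg a y * r = trAlg ρ y • r := by
    intro y
    have h := polarized ρ a hCH x y
    rw [hT0, hTxy] at h
    simpa using h
  obtain ⟨y₁, hy₁⟩ := hsurj (Matrix.single 0 1 1)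
  obtain ⟨y₂, hy₂⟩ := hsurj (Matrix.single 1 0 1)
  have hT1 : trAlg ρ y₁ = 0 := by
    rw [trAlg, hy₁]
    exact Matrix.trace_single_eq_of_ne 0 1 (1 : A) (by decide)
  have hT2 : trAlg ρ y₂ = 0 := by
    rw [trAlg, hy₂]
    exact Matrix.trace_single_eq_of_ne 1 0 (1 : A) (by decide)
  have he : evalHom ρ (y₁ * y₂) = Matrix.single 0 0 1 := by
    rw [map_mul, hy₁, hy₂, Matrix.single_mul_single_same, mul_one]
  have hTe : trAlg ρ (y₁ * y₂) = 1 := by rw [trAlg, he, Matrix.trace_single_eq_same]
  have hTee : trAlg ρ ((y₁ * y₂) * (y₁ * y₂)) = 1 := by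
    rw [trAlg, map_mul, he, Matrix.single_mul_single_same, mul_one, Matrix.trace_single_eq_same]
  have k1 : r * actAlg a y₁ + actAlg a y₁ * r = 0 := by
    have h := key y₁
    rwa [hT1, zero_smul] at h
  have k2 : r * actAlg a y₂ + actAlg a y₂ * r = 0 := by
    have h := key y₂
    rwa [hT2, zero_smul] at h
  have kp : r * (actAlg a y₁ * actAlg a y₂) + (actAlg a y₁ * actAlg a y₂) * r = r := by
    have h := key (y₁ * y₂)
    rwa [hTe, one_smul, map_mul] at h
  have pp : (actAlg a y₁ * actAlg a y₂) * (actAlg a y₁ * actAlg a y₂)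
      = actAlg a y₁ * actAlg a y₂ := by
    have h := polarized ρ a hCH (y₁ * y₂) (y₁ * y₂)
    rw [hTe, hTee, map_mul] at h
    have h' : (2 : A) • ((actAlg a y₁ * actAlg a y₂) * (actAlg a y₁ * actAlg a y₂)
        - actAlg a y₁ * actAlg a y₂) = 0 := by
      linear_combination (norm := module) h
    exact sub_eq_zero.mp ((h2.smul_eq_zero).mp h')
  generalize actAlg a y₁ = a₁ at *
  generalize actAlg a y₂ = a₂ at *
  have e1 : r * a₁ = -(a₁ * r) := eq_neg_of_add_eq_zero_left k1
  have e2 : r * a₂ = -(a₂ * r) := eq_neg_of_add_eq_zero_left k2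
  have comm : r * (a₁ * a₂) = (a₁ * a₂) * r := by
    calc r * (a₁ * a₂) = (r * a₁) * a₂ := (mul_assoc _ _ _).symm
      _ = -(a₁ * (r * a₂)) := by rw [e1, neg_mul, mul_assoc]
      _ = a₁ * a₂ * r := by rw [e2, mul_neg, neg_neg, mul_assoc]
  rw [comm] at kp
  have e4 : (a₁ * a₂) * r = 0 := by
    have h := congrArg (fun f => (a₁ * a₂) * f) kp
    simp only [mul_add, ← mul_assoc (a₁ * a₂) (a₁ * a₂) r, pp] at h
    simpa using h
  rw [← kp, e4, add_zero]

theorem actAlg_congr (x y : MonoidAlgebra A G) (h : evalHom ρ x = evalHom ρ y) :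
    actAlg a x = actAlg a y := by
  have h0 := act_eq_zero_of_rho_eq_zero ρ a hCH h2 hsurj (x - y) (by rw [map_sub, h, sub_self])
  rwa [map_sub, sub_eq_zero] at h0

/-- **Boston–Lenstra–Ribet**: the action of `G` on `X` extends to an action of the matrix
algebra `M₂(A)`. -/
noncomputable def psi : Matrix (Fin 2) (Fin 2) A →ₐ[A] Module.End A X :=
  AlgHom.ofLinearMap
    { toFun := fun M => actAlg a (Function.surjInv hsurj M)
      map_add' := fun M N => by
        rw [← map_add]
        apply actAlg_congr ρ a hCH h2 hsurj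
        rw [map_add, Function.surjInv_eq hsurj, Function.surjInv_eq hsurj, Function.surjInv_eq hsurj]
      map_smul' := fun c M => by
        rw [RingHom.id_apply, ← map_smul]
        apply actAlg_congr ρ a hCH h2 hsurj
        rw [map_smul, Function.surjInv_eq hsurj, Function.surjInv_eq hsurj] }
    (by
      change actAlg a (Function.surjInv hsurj 1) = 1
      rw [← map_one (actAlg a)]
      apply actAlg_congr ρ a hCH h2 hsurj
      rw [map_one, Function.surjInv_eq hsurj])
    (fun M N => by
      change actAlg a (Function.surjInv hsurj (M * N))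
        = actAlg a (Function.surjInv hsurj M) * actAlg a (Function.surjInv hsurj N)
      rw [← map_mul]
      apply actAlg_congr ρ a hCH h2 hsurj
      rw [map_mul, Function.surjInv_eq hsurj, Function.surjInv_eq hsurj, Function.surjInv_eq hsurj])

theorem psi_evalHom (x : MonoidAlgebra A G) :
    psi ρ a hCH h2 hsurj (evalHom ρ x) = actAlg a x := by
  change actAlg a (Function.surjInv hsurj (evalHom ρ x)) = actAlg a x
  apply actAlg_congr ρ a hCH h2 hsurj
  rw [Function.surjInv_eq hsurj]

theorem psi_rho (g : G) : psi ρ a hCH h2 hsurj (ρ g) = a g := by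
  rw [← evalHom_of ρ g, psi_evalHom, actAlg_of]

end Surj

/-! ### The Morita step -/

section Morita

variable {ρ a}
variable (Ψ : Matrix (Fin 2) (Fin 2) A →ₐ[A] Module.End A X)

theorem psi_single_single (i j k l : Fin 2) (x : X) :
    Ψ (Matrix.single i j 1) (Ψ (Matrix.single k l 1) x)
      = if j = k then Ψ (Matrix.single i l 1) x else 0 := by
  rw [← Module.End.mul_apply, ← map_mul]
  split_ifs with h
  · subst h
    rw [Matrix.single_mul_single_same, mul_one]
  · rw [Matrix.single_mul_single_of_ne _ _ _ _ h, map_zero, LinearMap.zero_apply]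

theorem matrix_eq_sum_units (M : Matrix (Fin 2) (Fin 2) A) :
    M = M 0 0 • Matrix.single 0 0 (1 : A) + M 0 1 • Matrix.single 0 1 (1 : A)
      + M 1 0 • Matrix.single 1 0 (1 : A) + M 1 1 • Matrix.single 1 1 (1 : A) := by
  ext i j
  fin_cases i <;> fin_cases j <;> simp [Matrix.single]

/-- The `E₁₁`-part of a module over the matrix algebra. -/
def part : Submodule A X := LinearMap.range (Ψ (Matrix.single 0 0 1))

theorem psi_part (x : part Ψ) : Ψ (Matrix.single 0 0 1) (x : X) = x := by
  obtain ⟨y, hy⟩ := x.2
  rw [← hy, psi_single_single, if_pos rfl]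

/-- **Morita**: a module over `M₂(A)` is two copies of its `E₁₁`-part. -/
noncomputable def moritaEquiv : (Fin 2 → part Ψ) ≃ₗ[A] X where
  toFun v := (v 0 : X) + Ψ (Matrix.single 1 0 1) (v 1 : X)
  map_add' v w := by
    simp only [Pi.add_apply, Submodule.coe_add, map_add]
    abel
  map_smul' c v := by
    simp only [Pi.smul_apply, Submodule.coe_smul, map_smul, RingHom.id_apply, smul_add]
  invFun x := ![⟨Ψ (Matrix.single 0 0 1) x, ⟨x, rfl⟩⟩,
    ⟨Ψ (Matrix.single 0 1 1) x, ⟨Ψ (Matrix.single 0 1 1) x, by
      rw [psi_single_single, if_pos rfl]⟩⟩]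
  left_inv v := by
    funext i
    apply Subtype.ext
    fin_cases i
    · change Ψ (Matrix.single 0 0 1) ((v 0 : X) + Ψ (Matrix.single 1 0 1) (v 1 : X)) = (v 0 : X)
      rw [map_add, psi_part, psi_single_single, if_neg (by decide), add_zero]
    · change Ψ (Matrix.single 0 1 1) ((v 0 : X) + Ψ (Matrix.single 1 0 1) (v 1 : X)) = (v 1 : X)
      rw [map_add, psi_single_single, if_pos rfl, psi_part, ← psi_part Ψ (v 0),
        psi_single_single, if_neg (by decide), zero_add]
  right_inv x := by
    change Ψ (Matrix.single 0 0 1) x + Ψ (Matrix.single 1 0 1) (Ψ (Matrix.single 0 1 1) x) = x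
    rw [psi_single_single, if_pos rfl, ← LinearMap.add_apply, ← map_add]
    have h1 : (Matrix.single 0 0 (1 : A) + Matrix.single 1 1 (1 : A) :
        Matrix (Fin 2) (Fin 2) A) = 1 := by
      ext i j
      fin_cases i <;> fin_cases j <;> simp [Matrix.single]
    rw [h1, map_one, Module.End.one_apply]

theorem moritaEquiv_apply (v : Fin 2 → part Ψ) :
    moritaEquiv Ψ v = (v 0 : X) + Ψ (Matrix.single 1 0 1) (v 1 : X) := rfl

/-- The Morita equivalence intertwines the action of a matrix `M` on `X` with the "matrix times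
vector" action on `X₀ × X₀`. -/
theorem psi_moritaEquiv (M : Matrix (Fin 2) (Fin 2) A) (v : Fin 2 → part Ψ) :
    Ψ M (moritaEquiv Ψ v) = moritaEquiv Ψ (fun i => ∑ j, M i j • v j) := by
  rw [moritaEquiv_apply, moritaEquiv_apply]
  conv_lhs => rw [matrix_eq_sum_units M]
  simp only [map_add, map_smul, LinearMap.add_apply, LinearMap.smul_apply, Fin.sum_univ_two,
    Submodule.coe_add, Submodule.coe_smul, psi_single_single]
  have e0 := psi_part Ψ (v 0)
  have e1 := psi_part Ψ (v 1)
  have z1 : Ψ (Matrix.single 0 1 1) (v 0 : X) = 0 := by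
    rw [← e0, psi_single_single, if_neg (by decide)]
  have z2 : Ψ (Matrix.single 1 1 1) (v 0 : X) = 0 := by
    rw [← e0, psi_single_single, if_neg (by decide)]
  simp only [e0, z1, z2, if_pos, smul_zero, add_zero, e1]
  have hne : ¬ ((0 : Fin 2) = 1) := by decide
  simp only [if_neg hne, smul_zero, add_zero, zero_add]
  abel

end Morita

/-! ### Main statements -/

section Main

variable (hCH : ∀ g : G, a g * a g - (ρ g).trace • a g + (ρ g).det • (1 : Module.End A X) = 0)
  (h2 : IsUnit (2 : A)) (hspan : Submodule.span A (Set.range ρ) = ⊤)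

include hCH h2 hspan

/-- **Boston–Lenstra–Ribet** (`2` invertible): if `ρ : G → GL₂(A)` spans `M₂(A)` and every
`g ∈ G` satisfies the characteristic polynomial of `ρ g` on the `A[G]`-module `X`, then the
action of `G` on `X` extends to an algebra homomorphism `M₂(A) → End_A X`. -/
theorem exists_algHom :
    ∃ Ψ : Matrix (Fin 2) (Fin 2) A →ₐ[A] Module.End A X, ∀ g, Ψ (ρ g) = a g :=
  ⟨psi ρ a hCH h2 (evalHom_surjective ρ hspan), psi_rho ρ a hCH h2 (evalHom_surjective ρ hspan)⟩

/-- **Boston–Lenstra–Ribet + Morita**: under the same hypotheses `X ≅ X₀ × X₀` for a submodule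
`X₀ ⊆ X`, with `g ∈ G` acting on `X₀ × X₀` through the matrix `ρ g`; i.e. `X ≅ ρ ⊗_A X₀` as
`A[G]`-modules. -/
theorem exists_equiv :
    ∃ (X₀ : Submodule A X) (Φ : (Fin 2 → X₀) ≃ₗ[A] X),
      ∀ (g : G) (v : Fin 2 → X₀), a g (Φ v) = Φ (fun i => ∑ j, ρ g i j • v j) := by
  obtain ⟨Ψ, hΨ⟩ := exists_algHom ρ a hCH h2 hspan
  refine ⟨part Ψ, moritaEquiv Ψ, fun g v => ?_⟩
  rw [← hΨ g, psi_moritaEquiv]

/-- If moreover `X` is a finitely generated faithful `A`-module, then the representation `ρ` on
`A²` embeds `G`-equivariantly into a finite power of `X`. -/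
theorem exists_equivariant_embedding [Module.Finite A X]
    (hfaith : ∀ c : A, (∀ x : X, c • x = 0) → c = 0) :
    ∃ (r : ℕ) (ι : (Fin 2 → A) →ₗ[A] (Fin r → X)), Function.Injective ι ∧
      ∀ (g : G) (w : Fin 2 → A) (k : Fin r), ι ((ρ g).mulVec w) k = a g (ι w k) := by
  obtain ⟨X₀, Φ, hΦ⟩ := exists_equiv ρ a hCH h2 hspan
  -- `X₀` is finitely generated
  have hfin : Module.Finite A X₀ :=
    Module.Finite.of_surjective ((LinearMap.proj 0 : (Fin 2 → X₀) →ₗ[A] X₀).comp Φ.symm.toLinearMap)
      (fun y => ⟨Φ (fun _ => y), by simp⟩)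
  obtain ⟨r, s, hs⟩ := Module.Finite.exists_fin (R := A) (M := X₀)
  -- `X₀` is faithful
  have hfaith0 : ∀ c : A, (∀ y : X₀, c • y = 0) → c = 0 := by
    intro c hc
    apply hfaith c
    intro x
    obtain ⟨v, rfl⟩ := Φ.surjective x
    rw [← map_smul]
    have : c • v = 0 := by
      funext i
      exact hc (v i)
    rw [this, map_zero]
  let ι : (Fin 2 → A) →ₗ[A] (Fin r → X) :=
    { toFun := fun w k => Φ (fun i => w i • s k)
      map_add' := fun w w' => by
        funext k
        simp only [Pi.add_apply, add_smul]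
        rw [← map_add]
        rfl
      map_smul' := fun c w => by
        funext k
        simp only [Pi.smul_apply, smul_eq_mul, RingHom.id_apply, mul_smul]
        rw [← map_smul]
        rfl }
  refine ⟨r, ι, ?_, ?_⟩
  · rw [← LinearMap.ker_eq_bot, LinearMap.ker_eq_bot']
    intro w hw
    funext i
    apply hfaith0
    intro y
    have hy : y ∈ Submodule.span A (Set.range s) := by rw [hs]; trivial
    induction hy using Submodule.span_induction with
    | mem x hx =>
      obtain ⟨k, rfl⟩ := hx
      have h1 : Φ (fun i => w i • s k) = 0 := congrFun hw k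
      have h2' := Φ.injective (h1.trans (map_zero Φ).symm)
      exact congrFun h2' i
    | zero => exact smul_zero _
    | add x y _ _ hx hy => rw [smul_add, hx, hy, add_zero]
    | smul c x _ hx => rw [smul_comm, hx, smul_zero]
  · intro g w k
    change Φ (fun i => (ρ g).mulVec w i • s k) = a g (Φ (fun i => w i • s k))
    rw [hΦ]
    congr 1
    funext i
    simp only [Matrix.mulVec, dotProduct, Finset.sum_smul, mul_smul]

end Main

end Fermat.Agent.Lib.GalRep.BLR
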