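import Mathlib
import Fermat.Agent.Lib.GalRep.BLR

/-!
# Lifting a residual representation to a faithful Cayley–Hamilton module

`A` a commutative ring with a nilpotent maximal ideal `𝔪` and `2 ∈ Aˣ`, `G` a group, `X` a
faithful `A`-module with an `A`-linear action `a` of `G`, and functions `τ δ : G → A` (`δ`
multiplicative) such that every `g ∈ G` satisfies `a g ^ 2 - τ g • a g + δ g = 0` on `X`.
Let `ρ̄ : G → GL₂(A ⧸ 𝔪)` span `M₂(A ⧸ 𝔪)` with `tr ρ̄ = τ` and `det ρ̄ = δ` modulo `𝔪`.

* `exists_lift`: there are `ρ : G →* M₂(A)` spanning `M₂(A)` with `tr ρ = τ` and an injective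
  algebra homomorphism `Ψ : M₂(A) → End_A X` with `Ψ (ρ g) = a g`.  (The image `B` of the group
  algebra in `End_A X` is `M₂(A)`: Boston–Lenstra–Ribet over the field `A ⧸ 𝔪`
  (`Lib/GalRep/BLR.lean`), lifting of matrix units along the nil ideal `{b ∈ B | b X ⊆ 𝔪 X}`
  (`exists_isMatrixUnits_lift`), `e₁ B e₁ = A e₁` and `tr ρ = τ` by the polarised
  Cayley–Hamilton identity.)
* `exists_equivariant_embedding_of_algHom`: if moreover `X` is finitely generated, then `A²`
  with the action `ρ` embeds `G`-equivariantly into a finite power of `X`.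

Ingredients of independent use: `polarized_exists` (polarised identity for formal combinations
of group elements), `red` (reduction `End_A X → End_{A⧸𝔪} (X ⧸ 𝔪 X)` as a ring homomorphism),
`IsMatrixUnits`, `exists_isMatrixUnits_lift`, `ofUnits`.
-/

set_option autoImplicit false

namespace Fermat.Agent.Lib.GalRep.BLRLift

open Matrix

section Polar

variable {A : Type*} [CommRing A] {G : Type*} [Group G]
  {X : Type*} [AddCommGroup X] [Module A X] (a : G →* Module.End A X) (τ δ : G → A)

/-- The action of formal `A`-linear combinations of group elements. -/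
noncomputable def act : (G →₀ A) →ₗ[A] Module.End A X :=
  Finsupp.linearCombination A (fun g => a g)

/-- The linear extension of `τ` to formal combinations of group elements. -/
noncomputable def trF : (G →₀ A) →ₗ[A] A := Finsupp.linearCombination A τ

theorem act_single (g : G) (c : A) : act a (Finsupp.single g c) = c • a g := by
  simp [act]

omit [Group G] in
theorem trF_single (g : G) (c : A) : trF τ (Finsupp.single g c) = c * τ g := by
  simp [trF]

theorem range_act : LinearMap.range (act a (A := A)) = Submodule.span A (Set.range a) :=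
  Finsupp.range_linearCombination _

variable {a τ δ}

section CH

variable (hδ : ∀ g h, δ (g * h) = δ g * δ h)
  (hCH : ∀ g, a g * a g - τ g • a g + δ g • (1 : Module.End A X) = 0)

include hδ hCH

theorem polarized_group (g h : G) :
    a g * a h + a h * a g = τ g • a h + τ h • a g + (τ (g * h) - τ g * τ h) • (1 : Module.End A X) := by
  have inv : ∀ g : G, δ g • a g⁻¹ = τ g • (1 : Module.End A X) - a g := by
    intro g
    have h := congrArg (fun f => f * a g⁻¹) (hCH g)
    simp only [add_mul, sub_mul, zero_mul, smul_mul_assoc, one_mul] at h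
    have h1 : a g * a g⁻¹ = 1 := by rw [← map_mul, mul_inv_cancel, map_one]
    rw [mul_assoc, h1, mul_one] at h
    rw [eq_sub_iff_add_eq, ← sub_eq_zero]
    rw [← h]
    abel
  have h1 := inv g
  have h2 := inv h
  have h3 := inv (g * h)
  have h4 : δ (g * h) • a (g * h)⁻¹ = (δ h • a h⁻¹) * (δ g • a g⁻¹) := by
    rw [_root_.mul_inv_rev, map_mul, hδ, smul_mul_smul_comm, mul_comm (δ h)]
  rw [h4, h1, h2, map_mul a g h] at h3
  simp only [sub_mul, mul_sub, smul_mul_assoc, mul_smul_comm, one_mul, mul_one] at h3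
  linear_combination (norm := module) h3

theorem polarized_exists (u v : G →₀ A) : ∃ c : A,
    act a u * act a v + act a v * act a u
      = trF τ u • act a v + trF τ v • act a u + c • (1 : Module.End A X) := by
  induction u using Finsupp.induction_linear with
  | zero => exact ⟨0, by simp⟩
  | add u₁ u₂ h₁ h₂ =>
    obtain ⟨c₁, h₁⟩ := h₁
    obtain ⟨c₂, h₂⟩ := h₂
    refine ⟨c₁ + c₂, ?_⟩
    simp only [map_add, add_mul, mul_add, add_smul, smul_add]
    linear_combination (norm := module) h₁ + h₂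
  | single g r =>
    induction v using Finsupp.induction_linear with
    | zero => exact ⟨0, by simp⟩
    | add v₁ v₂ h₁ h₂ =>
      obtain ⟨c₁, h₁⟩ := h₁
      obtain ⟨c₂, h₂⟩ := h₂
      refine ⟨c₁ + c₂, ?_⟩
      simp only [map_add, add_mul, mul_add, add_smul, smul_add]
      linear_combination (norm := module) h₁ + h₂
    | single h s =>
      refine ⟨r * s * (τ (g * h) - τ g * τ h), ?_⟩
      have key := polarized_group hδ hCH g h
      simp only [act_single, trF_single, smul_mul_smul_comm]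
      linear_combination (norm := module) (r * s) • key

end CH

end Polar

section Red

variable {A : Type*} [CommRing A] {X : Type*} [AddCommGroup X] [Module A X] (𝔪 : Ideal A)

/-- Every `A`-linear endomorphism preserves `𝔪 X`. -/
theorem le_comap_smul_top (f : Module.End A X) :
    (𝔪 • ⊤ : Submodule A X) ≤ (𝔪 • ⊤ : Submodule A X).comap f := by
  rw [← Submodule.map_le_iff_le_comap, Submodule.map_smul'']
  exact Submodule.smul_mono le_rfl le_top

/-- Reduction of an endomorphism of `X` to an endomorphism of the `A ⧸ 𝔪`-module `X ⧸ 𝔪 X`. -/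
noncomputable def red : Module.End A X →+* Module.End (A ⧸ 𝔪) (X ⧸ (𝔪 • ⊤ : Submodule A X)) where
  toFun f :=
    { toFun := Submodule.mapQ _ _ f (le_comap_smul_top 𝔪 f)
      map_add' := map_add _
      map_smul' := by
        intro c x
        obtain ⟨c, rfl⟩ := Ideal.Quotient.mk_surjective c
        obtain ⟨x, rfl⟩ := Submodule.Quotient.mk_surjective _ x
        rw [RingHom.id_apply, Module.Quotient.mk_smul_mk, Submodule.mapQ_apply,
          Submodule.mapQ_apply, map_smul, Module.Quotient.mk_smul_mk] }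
  map_one' := by
    refine LinearMap.ext fun x => ?_
    obtain ⟨x, rfl⟩ := Submodule.Quotient.mk_surjective _ x
    rfl
  map_mul' f g := by
    refine LinearMap.ext fun x => ?_
    obtain ⟨x, rfl⟩ := Submodule.Quotient.mk_surjective _ x
    rfl
  map_zero' := by
    refine LinearMap.ext fun x => ?_
    obtain ⟨x, rfl⟩ := Submodule.Quotient.mk_surjective _ x
    rfl
  map_add' f g := by
    refine LinearMap.ext fun x => ?_
    obtain ⟨x, rfl⟩ := Submodule.Quotient.mk_surjective _ x
    rfl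

theorem red_apply_mk (f : Module.End A X) (x : X) :
    red 𝔪 f (Submodule.Quotient.mk x) = Submodule.Quotient.mk (f x) := rfl

theorem red_smul (c : A) (f : Module.End A X) :
    red 𝔪 (c • f) = Ideal.Quotient.mk 𝔪 c • red 𝔪 f := by
  refine LinearMap.ext fun x => ?_
  obtain ⟨x, rfl⟩ := Submodule.Quotient.mk_surjective _ x
  rw [LinearMap.smul_apply, red_apply_mk, red_apply_mk, LinearMap.smul_apply,
    Module.Quotient.mk_smul_mk]

theorem red_eq_zero_iff (f : Module.End A X) :
    red 𝔪 f = 0 ↔ ∀ x, f x ∈ (𝔪 • ⊤ : Submodule A X) := by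
  constructor
  · intro h x
    have h1 := congrArg (fun φ => φ (Submodule.Quotient.mk x)) h
    simp only [red_apply_mk, LinearMap.zero_apply] at h1
    exact (Submodule.Quotient.mk_eq_zero _).mp h1
  · intro h
    refine LinearMap.ext fun x => ?_
    obtain ⟨x, rfl⟩ := Submodule.Quotient.mk_surjective _ x
    rw [red_apply_mk, LinearMap.zero_apply]
    exact (Submodule.Quotient.mk_eq_zero _).mpr (h x)

/-- An endomorphism with zero reduction maps `X` into `𝔪 ^ j X` after `j` iterations. -/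
theorem pow_apply_mem_of_red_eq_zero (f : Module.End A X) (hf : red 𝔪 f = 0) (j : ℕ) (x : X) :
    (f ^ j) x ∈ (𝔪 ^ j • ⊤ : Submodule A X) := by
  induction j generalizing x with
  | zero => simp
  | succ j ih =>
    have hx := (red_eq_zero_iff 𝔪 f).mp hf x
    have e : (f ^ (j + 1)) x = (f ^ j) (f x) := by rw [pow_succ, Module.End.mul_apply]
    rw [e, pow_succ', Submodule.mul_smul]
    refine Submodule.smul_induction_on
      (p := fun y => (f ^ j) y ∈ (𝔪 • 𝔪 ^ j • ⊤ : Submodule A X)) hx ?_ ?_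
    · intro r hr y _
      rw [map_smul]
      exact Submodule.smul_mem_smul hr (ih y)
    · intro y z hy hz
      rw [map_add]
      exact Submodule.add_mem _ hy hz

theorem pow_eq_zero_of_red_eq_zero {s : ℕ} (hs : 𝔪 ^ s = ⊥) (f : Module.End A X)
    (hf : red 𝔪 f = 0) : f ^ s = 0 := by
  refine LinearMap.ext fun x => ?_
  have h := pow_apply_mem_of_red_eq_zero 𝔪 f hf s x
  rw [hs, Submodule.bot_smul] at h
  simpa using h

end Red

/-- A system of `2 × 2` matrix units in a ring. -/
structure IsMatrixUnits {C : Type*} [Ring C] (E : Fin 2 → Fin 2 → C) : Prop where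
  mul : ∀ i j k l, E i j * E k l = if j = k then E i l else 0
  one : E 0 0 + E 1 1 = 1

/-- **Lifting of matrix units** along a ring homomorphism with nil kernel. -/
theorem exists_isMatrixUnits_lift {C S : Type*} [Ring C] [Ring S] (f : C →+* S)
    (hker : ∀ x ∈ RingHom.ker f, IsNilpotent x) (Eb : Fin 2 → Fin 2 → S)
    (hEb : IsMatrixUnits Eb) (hrange : ∀ i j, Eb i j ∈ f.range) :
    ∃ E : Fin 2 → Fin 2 → C, IsMatrixUnits E ∧ ∀ i j, f (E i j) = Eb i j := by
  have hb00 : IsIdempotentElem (Eb 0 0) := by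
    have := hEb.mul 0 0 0 0
    simpa [IsIdempotentElem] using this
  obtain ⟨e₁, he₁, hfe₁⟩ := exists_isIdempotentElem_eq_of_ker_isNilpotent f hker (Eb 0 0)
    (hrange 0 0) hb00
  obtain ⟨b₁₂, hb₁₂⟩ := hrange 0 1
  obtain ⟨b₂₁, hb₂₁⟩ := hrange 1 0
  have he₁' : e₁ * e₁ = e₁ := he₁
  obtain ⟨e₂, he₂def⟩ : ∃ e₂ : C, e₂ = 1 - e₁ := ⟨_, rfl⟩
  have he₂ : e₂ * e₂ = e₂ := by
    rw [he₂def, mul_sub, mul_one, sub_mul, one_mul, he₁', sub_self, sub_zero]
  have h12 : e₁ * e₂ = 0 := by rw [he₂def, mul_sub, mul_one, he₁', sub_self]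
  have h21 : e₂ * e₁ = 0 := by rw [he₂def, sub_mul, one_mul, he₁', sub_self]
  have hfe₂ : f e₂ = Eb 1 1 := by
    rw [he₂def, map_sub, map_one, hfe₁, ← hEb.one, add_sub_cancel_left]
  obtain ⟨u, hu⟩ : ∃ u : C, u = e₁ * b₁₂ * e₂ := ⟨_, rfl⟩
  obtain ⟨v, hv⟩ : ∃ v : C, v = e₂ * b₂₁ * e₁ := ⟨_, rfl⟩
  have hfu : f u = Eb 0 1 := by
    rw [hu, map_mul, map_mul, hfe₁, hfe₂, hb₁₂, hEb.mul, if_pos rfl, hEb.mul, if_pos rfl]
  have hfv : f v = Eb 1 0 := by
    rw [hv, map_mul, map_mul, hfe₁, hfe₂, hb₂₁, hEb.mul, if_pos rfl, hEb.mul, if_pos rfl]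
  have e₁u : e₁ * u = u := by rw [hu, ← mul_assoc, ← mul_assoc, he₁']
  have ue₂ : u * e₂ = u := by rw [hu, mul_assoc, he₂]
  have e₂u : e₂ * u = 0 := by rw [hu, ← mul_assoc, ← mul_assoc, h21, zero_mul, zero_mul]
  have ue₁ : u * e₁ = 0 := by rw [hu, mul_assoc, h21, mul_zero]
  have e₂v : e₂ * v = v := by rw [hv, ← mul_assoc, ← mul_assoc, he₂]
  have ve₁ : v * e₁ = v := by rw [hv, mul_assoc, he₁']
  have e₁v : e₁ * v = 0 := by rw [hv, ← mul_assoc, ← mul_assoc, h12, zero_mul, zero_mul]
  have ve₂ : v * e₂ = 0 := by rw [hv, mul_assoc, h12, mul_zero]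
  -- the nilpotent defect
  obtain ⟨n, hn⟩ : ∃ n : C, n = e₁ - u * v := ⟨_, rfl⟩
  have hfn : f n = 0 := by
    rw [hn, map_sub, map_mul, hfe₁, hfu, hfv, hEb.mul, if_pos rfl, sub_self]
  obtain ⟨s, hs⟩ := hker n hfn
  have e₁n : e₁ * n = n := by rw [hn, mul_sub, he₁', ← mul_assoc, e₁u]
  have ne₁ : n * e₁ = n := by rw [hn, sub_mul, he₁', mul_assoc, ve₁]
  obtain ⟨g, hg⟩ : ∃ g : C, g = ∑ i ∈ Finset.range s, n ^ i := ⟨_, rfl⟩
  have hg1 : (1 - n) * g = 1 := by rw [hg, mul_neg_geom_sum, hs, sub_zero]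
  have hcomm : Commute e₁ g := by
    rw [hg]
    refine Commute.sum_right _ _ _ fun i _ => ?_
    exact Commute.pow_right (show e₁ * n = n * e₁ by rw [e₁n, ne₁]) i
  have huv : u * v = e₁ * (1 - n) := by rw [mul_sub, mul_one, e₁n, hn, sub_sub_cancel]
  have hfg : f g = 1 := by
    have h1 := congrArg f hg1
    rw [map_mul, map_sub, map_one, hfn, sub_zero, one_mul] at h1
    exact h1
  obtain ⟨t, ht⟩ : ∃ t : C, t = v * g := ⟨_, rfl⟩
  have hft : f t = Eb 1 0 := by rw [ht, map_mul, hfg, mul_one, hfv]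
  have ut : u * t = e₁ := by rw [ht, ← mul_assoc, huv, mul_assoc, hg1, mul_one]
  have e₂t : e₂ * t = t := by rw [ht, ← mul_assoc, e₂v]
  have te₁ : t * e₁ = t := by rw [ht, mul_assoc, ← hcomm.eq, ← mul_assoc, ve₁]
  have e₁t : e₁ * t = 0 := by rw [ht, ← mul_assoc, e₁v, zero_mul]
  have te₂ : t * e₂ = 0 := by
    rw [he₂def, mul_sub, mul_one, te₁, sub_self]
  have uu : u * u = 0 := by
    calc u * u = u * e₂ * u := by rw [ue₂]
      _ = 0 := by rw [mul_assoc, e₂u, mul_zero]
  have tt : t * t = 0 := by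
    calc t * t = t * e₁ * t := by rw [te₁]
      _ = 0 := by rw [mul_assoc, e₁t, mul_zero]
  have tu : t * u = e₂ := by
    have hidem : IsIdempotentElem (e₂ - t * u) := by
      have h1 : (t * u) * (t * u) = t * u := by
        rw [mul_assoc, ← mul_assoc u t u, ut, e₁u]
      have h2 : e₂ * (t * u) = t * u := by rw [← mul_assoc, e₂t]
      have h3 : (t * u) * e₂ = t * u := by rw [mul_assoc, ue₂]
      show (e₂ - t * u) * (e₂ - t * u) = e₂ - t * u
      rw [sub_mul, mul_sub, mul_sub, he₂, h1, h2, h3]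
      abel
    have hnil : IsNilpotent (e₂ - t * u) := by
      apply hker
      rw [RingHom.mem_ker, map_sub, map_mul, hfe₂, hft, hfu, hEb.mul, if_pos rfl, sub_self]
    have := hidem.eq_zero_of_isNilpotent hnil
    exact (sub_eq_zero.mp this).symm
  refine ⟨![![e₁, u], ![t, e₂]], ⟨?_, ?_⟩, ?_⟩
  · intro i j k l
    fin_cases i <;> fin_cases j <;> fin_cases k <;> fin_cases l <;>
      simp [he₁', he₂, h12, h21, e₁u, ue₂, e₂u, ue₁, ut, tu, e₂t, te₁, e₁t, te₂, uu, tt]
  · simp [he₂def]
  · intro i j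
    fin_cases i <;> fin_cases j <;> simp [hfe₁, hfe₂, hfu, hft]

section OfUnits

variable {A : Type*} [CommRing A] {C : Type*} [Ring C] [Algebra A C]
  (E : Fin 2 → Fin 2 → C) (hE : IsMatrixUnits E)

/-- The algebra homomorphism `M₂(A) → C` defined by a system of matrix units of `C`. -/
noncomputable def ofUnits : Matrix (Fin 2) (Fin 2) A →ₐ[A] C :=
  AlgHom.ofLinearMap
    { toFun := fun M => ∑ i, ∑ j, M i j • E i j
      map_add' := fun M N => by
        simp only [Matrix.add_apply, add_smul, Finset.sum_add_distrib]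
      map_smul' := fun c M => by
        simp only [Matrix.smul_apply, smul_eq_mul, mul_smul, Finset.smul_sum, RingHom.id_apply] }
    (by
      change ∑ i, ∑ j, (1 : Matrix (Fin 2) (Fin 2) A) i j • E i j = 1
      simp [Fin.sum_univ_two, hE.one])
    (fun M N => by
      change ∑ i, ∑ j, (M * N) i j • E i j
        = (∑ i, ∑ j, M i j • E i j) * (∑ i, ∑ j, N i j • E i j)
      simp only [Fin.sum_univ_two, Matrix.mul_apply, add_mul, mul_add, smul_mul_smul_comm,
        hE.mul, add_smul]
      simp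
      abel)

theorem ofUnits_apply (M : Matrix (Fin 2) (Fin 2) A) :
    ofUnits E hE M = ∑ i, ∑ j, M i j • E i j := rfl

theorem ofUnits_single (i j : Fin 2) : ofUnits (A := A) E hE (Matrix.single i j 1) = E i j := by
  rw [ofUnits_apply]
  fin_cases i <;> fin_cases j <;> simp [Fin.sum_univ_two, Matrix.single]

end OfUnits

section Main

variable {A : Type*} [CommRing A] {G : Type*} [Group G] {X : Type*} [AddCommGroup X] [Module A X]

/-- The polarised Cayley–Hamilton identity for `2 × 2` matrices. -/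
theorem matrix_polarized (x y : Matrix (Fin 2) (Fin 2) A) :
    x * y + y * x = x.trace • y + y.trace • x
      + ((x * y).trace - x.trace * y.trace) • (1 : Matrix (Fin 2) (Fin 2) A) := by
  ext i j
  fin_cases i <;> fin_cases j <;>
    simp [Matrix.mul_apply, Fin.sum_univ_two, Matrix.trace_fin_two] <;> ring

/-- Formal combinations of group elements, mapped to matrices over `A ⧸ 𝔪`. -/
noncomputable def rhoF (𝔪 : Ideal A) (ρb : G →* Matrix (Fin 2) (Fin 2) (A ⧸ 𝔪)) :
    (G →₀ A) →ₗ[A] Matrix (Fin 2) (Fin 2) (A ⧸ 𝔪) :=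
  Finsupp.linearCombination A (fun g => ρb g)

theorem rhoF_single (𝔪 : Ideal A) (ρb : G →* Matrix (Fin 2) (Fin 2) (A ⧸ 𝔪)) (g : G) (c : A) :
    rhoF 𝔪 ρb (Finsupp.single g c) = Ideal.Quotient.mk 𝔪 c • ρb g := by
  simp only [rhoF, Finsupp.linearCombination_single]
  ext i j
  simp [Algebra.smul_def]

theorem rhoF_surjective (𝔪 : Ideal A) (ρb : G →* Matrix (Fin 2) (Fin 2) (A ⧸ 𝔪))
    (hspan : Submodule.span (A ⧸ 𝔪) (Set.range ρb) = ⊤) : Function.Surjective (rhoF 𝔪 ρb) := by
  rw [← LinearMap.range_eq_top, rhoF, Finsupp.range_linearCombination,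
    ← Submodule.restrictScalars_span A (A ⧸ 𝔪) Ideal.Quotient.mk_surjective, hspan]
  rfl

/-- **Lifting theorem.**  `A` a commutative ring with a maximal ideal `𝔪` which is nilpotent,
`2 ∈ Aˣ`; `X` a faithful `A`-module with an `A`-linear action of a group `G` such that every
`g` satisfies `g² - τ(g) g + δ(g) = 0` for functions `τ, δ : G → A` with `δ` multiplicative;
`ρ̄ : G → GL₂(A ⧸ 𝔪)` spanning `M₂(A ⧸ 𝔪)`, with trace `τ` and determinant `δ` modulo `𝔪`.
Then there are a representation `ρ : G → GL₂(A)` spanning `M₂(A)` with `tr ρ = τ` and an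
injective algebra homomorphism `Ψ : M₂(A) → End_A X` with `Ψ (ρ g) = g`. -/
theorem exists_lift (a : G →* Module.End A X) (τ δ : G → A)
    (hδ : ∀ g h, δ (g * h) = δ g * δ h)
    (hCH : ∀ g, a g * a g - τ g • a g + δ g • (1 : Module.End A X) = 0)
    (hfaith : ∀ c : A, (∀ x : X, c • x = 0) → c = 0)
    (𝔪 : Ideal A) [h𝔪 : 𝔪.IsMaximal] (hnil : ∃ s : ℕ, 𝔪 ^ s = ⊥) (h2 : IsUnit (2 : A))
    (ρb : G →* Matrix (Fin 2) (Fin 2) (A ⧸ 𝔪))
    (hspan : Submodule.span (A ⧸ 𝔪) (Set.range ρb) = ⊤)
    (htr : ∀ g, (ρb g).trace = Ideal.Quotient.mk 𝔪 (τ g))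
    (hdet : ∀ g, (ρb g).det = Ideal.Quotient.mk 𝔪 (δ g)) :
    ∃ (ρ : G →* Matrix (Fin 2) (Fin 2) A) (Ψ : Matrix (Fin 2) (Fin 2) A →ₐ[A] Module.End A X),
      (∀ g, Ψ (ρ g) = a g) ∧ Function.Injective Ψ ∧ Submodule.span A (Set.range ρ) = ⊤ ∧
      ∀ g, (ρ g).trace = τ g := by
  classical
  obtain ⟨s, hs⟩ := hnil
  let _ : Field (A ⧸ 𝔪) := Ideal.Quotient.field 𝔪
  -- the reduced action and the Boston–Lenstra–Ribet homomorphism over `A ⧸ 𝔪`
  let ab : G →* Module.End (A ⧸ 𝔪) (X ⧸ (𝔪 • ⊤ : Submodule A X)) :=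
    (red 𝔪 (X := X)).toMonoidHom.comp a
  have hab : ∀ g, ab g = red 𝔪 (a g) := fun g => rfl
  have hCHb : ∀ g, ab g * ab g - (ρb g).trace • ab g
      + (ρb g).det • (1 : Module.End (A ⧸ 𝔪) (X ⧸ (𝔪 • ⊤ : Submodule A X))) = 0 := by
    intro g
    have h := congrArg (red 𝔪 (X := X)) (hCH g)
    rw [map_add, map_sub, map_mul, red_smul, red_smul, map_one, map_zero] at h
    rw [hab, htr, hdet]
    exact h
  have h2b : IsUnit (2 : A ⧸ 𝔪) := by
    have h := h2.map (Ideal.Quotient.mk 𝔪)
    rwa [map_ofNat] at h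
  obtain ⟨Ψb, hΨb⟩ := BLR.exists_algHom ρb ab hCHb h2b hspan
  have hsurjF := rhoF_surjective 𝔪 ρb hspan
  have hcompat : ∀ u : G →₀ A, Ψb (rhoF 𝔪 ρb u) = red 𝔪 (act a u) := by
    intro u
    induction u using Finsupp.induction_linear with
    | zero => simp
    | add u v hu hv => rw [map_add, map_add, map_add, map_add, hu, hv]
    | single g c => rw [rhoF_single, map_smul, hΨb, hab, act_single, red_smul]
  have htrF : ∀ u : G →₀ A, (rhoF 𝔪 ρb u).trace = Ideal.Quotient.mk 𝔪 (trF τ u) := by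
    intro u
    induction u using Finsupp.induction_linear with
    | zero => simp
    | add u v hu hv => rw [map_add, map_add, Matrix.trace_add, map_add, hu, hv]
    | single g c =>
      rw [rhoF_single, Matrix.trace_smul, htr, trF_single, map_mul, smul_eq_mul]
  -- `End (X ⧸ 𝔪 X)` is nontrivial, hence `Ψb` is injective
  have hXb : Nontrivial (Module.End (A ⧸ 𝔪) (X ⧸ (𝔪 • ⊤ : Submodule A X))) := by
    refine ⟨⟨1, 0, fun h => ?_⟩⟩
    have h1 : red 𝔪 (1 : Module.End A X) = 0 := by rw [map_one]; exact h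
    have h2' := pow_eq_zero_of_red_eq_zero 𝔪 hs 1 h1
    rw [one_pow] at h2'
    have h3 : (1 : A) = 0 := hfaith 1 (fun x => by
      rw [one_smul]
      have h4 := congrArg (fun φ : Module.End A X => φ x) h2'
      simpa using h4)
    exact h𝔪.ne_top ((Ideal.eq_top_iff_one 𝔪).mpr (h3 ▸ 𝔪.zero_mem))
  have hΨb_inj : Function.Injective Ψb := fun x y h => RingHom.injective Ψb.toRingHom h
  -- the image `B` of the group algebra in `End_A X`
  let B : Subalgebra A (Module.End A X) := Algebra.adjoin A (Set.range a)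
  have hBmem : ∀ b : Module.End A X, b ∈ B ↔ ∃ u : G →₀ A, act a u = b := by
    intro b
    have h1 : (Subalgebra.toSubmodule B) = LinearMap.range (act a (A := A)) := by
      rw [range_act, Algebra.adjoin_eq_span]
      congr 1
      rw [← MonoidHom.coe_mrange, Submonoid.closure_eq]
    rw [← Subalgebra.mem_toSubmodule, h1]
    rfl
  let f : B →+* Module.End (A ⧸ 𝔪) (X ⧸ (𝔪 • ⊤ : Submodule A X)) :=
    (red 𝔪 (X := X)).comp B.val.toRingHom
  have hf : ∀ b : B, f b = red 𝔪 (b : Module.End A X) := fun b => rfl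
  have hker : ∀ x ∈ RingHom.ker f, IsNilpotent x := by
    intro x hx
    refine ⟨s, Subtype.ext ?_⟩
    rw [SubmonoidClass.coe_pow]
    exact pow_eq_zero_of_red_eq_zero 𝔪 hs x.1 hx
  let Eb : Fin 2 → Fin 2 → Module.End (A ⧸ 𝔪) (X ⧸ (𝔪 • ⊤ : Submodule A X)) :=
    fun i j => Ψb (Matrix.single i j 1)
  have hEb : IsMatrixUnits Eb := by
    refine ⟨fun i j k l => ?_, ?_⟩
    · show Ψb (Matrix.single i j 1) * Ψb (Matrix.single k l 1)
        = if j = k then Ψb (Matrix.single i l 1) else 0
      rw [← map_mul]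
      split_ifs with h
      · subst h
        rw [Matrix.single_mul_single_same, mul_one]
      · rw [Matrix.single_mul_single_of_ne _ _ _ _ h, map_zero]
    · show Ψb (Matrix.single 0 0 1) + Ψb (Matrix.single 1 1 1) = 1
      rw [← map_add, ← map_one Ψb]
      congr 1
      ext i j
      fin_cases i <;> fin_cases j <;> simp [Matrix.single]
  have hrange : ∀ i j, Eb i j ∈ f.range := by
    intro i j
    obtain ⟨u, hu⟩ := hsurjF (Matrix.single i j 1)
    exact ⟨⟨act a u, (hBmem _).mpr ⟨u, rfl⟩⟩, by rw [hf, ← hcompat, hu]⟩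
  obtain ⟨E, hE, hfE⟩ := exists_isMatrixUnits_lift f hker Eb hEb hrange
  let E' : Fin 2 → Fin 2 → Module.End A X := fun i j => (E i j : Module.End A X)
  have hE'B : ∀ i j, E' i j ∈ B := fun i j => (E i j).2
  have hmulE : ∀ i j k l, E' i j * E' k l = if j = k then E' i l else 0 := by
    intro i j k l
    have h := congrArg (Subtype.val) (hE.mul i j k l)
    rw [apply_ite Subtype.val] at h
    exact h
  have hE' : IsMatrixUnits E' := ⟨hmulE, congrArg Subtype.val hE.one⟩
  have hredE : ∀ i j, red 𝔪 (E' i j) = Ψb (Matrix.single i j 1) := fun i j => hfE i j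
  -- `e₁ B e₁ = A e₁`
  obtain ⟨e₁, he₁def⟩ : ∃ e₁ : Module.End A X, e₁ = E' 0 0 := ⟨_, rfl⟩
  have hee : e₁ * e₁ = e₁ := by rw [he₁def, hmulE, if_pos rfl]
  obtain ⟨ue, hue⟩ := (hBmem e₁).mp (he₁def ▸ hE'B 0 0)
  have hrho_ue : rhoF 𝔪 ρb ue = Matrix.single 0 0 1 := by
    apply hΨb_inj
    rw [hcompat, hue, he₁def, hredE]
  have htr_ue : Ideal.Quotient.mk 𝔪 (trF τ ue) = 1 := by
    rw [← htrF, hrho_ue, Matrix.trace_single_eq_same]
  have hunit : IsUnit (2 - trF τ ue) := by
    have h1 : (2 - trF τ ue) - 1 ∈ 𝔪 := by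
      rw [← Ideal.Quotient.eq_zero_iff_mem, map_sub, map_sub, htr_ue, map_one, map_ofNat]
      norm_num
    have h2' : IsNilpotent ((2 - trF τ ue) - 1) := ⟨s, by
      have h3 := Ideal.pow_mem_pow h1 s
      rwa [hs, Ideal.mem_bot] at h3⟩
    have h4 := h2'.isUnit_add_one
    rwa [sub_add_cancel] at h4
  obtain ⟨d, hd⟩ := hunit
  have key : ∀ b ∈ B, ∃ c : A, e₁ * b * e₁ = c • e₁ := by
    intro b hb
    obtain ⟨v, rfl⟩ := (hBmem b).mp hb
    obtain ⟨c, hc⟩ := polarized_exists hδ hCH ue v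
    rw [hue] at hc
    have h1 := congrArg (fun φ => e₁ * φ * e₁) hc
    simp only [mul_add, add_mul, mul_smul_comm, smul_mul_assoc, mul_one] at h1
    have l1 : e₁ * (e₁ * act a v) * e₁ = e₁ * act a v * e₁ := by rw [← mul_assoc, hee]
    have l2 : e₁ * (act a v * e₁) * e₁ = e₁ * act a v * e₁ := by
      rw [mul_assoc, mul_assoc, hee, ← mul_assoc]
    rw [l1, l2, hee, hee] at h1
    have h3 : (2 - trF τ ue) • (e₁ * act a v * e₁) = (trF τ v + c) • e₁ := by
      linear_combination (norm := module) h1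
    refine ⟨(↑d⁻¹ : A) * (trF τ v + c), ?_⟩
    rw [mul_smul, ← h3, ← hd, smul_smul, Units.inv_mul, one_smul]
  have key2 : ∀ b ∈ B, ∀ i j, ∃ c : A, E' 0 i * b * E' j 0 = c • e₁ := by
    intro b hb i j
    obtain ⟨c, hc⟩ := key (E' 0 i * b * E' j 0)
      (B.mul_mem (B.mul_mem (hE'B 0 i) hb) (hE'B j 0))
    refine ⟨c, ?_⟩
    rw [← hc]
    have h1 : e₁ * E' 0 i = E' 0 i := by rw [he₁def, hmulE, if_pos rfl]
    have h2' : E' j 0 * e₁ = E' j 0 := by rw [he₁def, hmulE, if_pos rfl]
    have h3 : e₁ * (E' 0 i * b * E' j 0) * e₁ = (e₁ * E' 0 i) * b * (E' j 0 * e₁) := by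
      simp only [mul_assoc]
    rw [h3, h1, h2']
  let Ψ : Matrix (Fin 2) (Fin 2) A →ₐ[A] Module.End A X := ofUnits (A := A) E' hE'
  have hΨsurj : ∀ b ∈ B, ∃ M, Ψ M = b := by
    intro b hb
    choose c hc using key2 b hb
    refine ⟨Matrix.of c, ?_⟩
    have hterm : ∀ i j, E' i i * b * E' j j = c i j • E' i j := by
      intro i j
      have h1 : E' i i = E' i 0 * E' 0 i := by rw [hmulE, if_pos rfl]
      have h2' : E' j j = E' j 0 * E' 0 j := by rw [hmulE, if_pos rfl]
      calc E' i i * b * E' j j = E' i 0 * (E' 0 i * b * E' j 0) * E' 0 j := by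
            rw [h1, h2']
            simp only [mul_assoc]
        _ = c i j • E' i j := by
          rw [hc, mul_smul_comm, smul_mul_assoc, he₁def, hmulE, if_pos rfl, hmulE, if_pos rfl]
    have hb1 : b = (E' 0 0 + E' 1 1) * b * (E' 0 0 + E' 1 1) := by
      rw [hE'.one, one_mul, mul_one]
    show ofUnits E' hE' (Matrix.of c) = b
    rw [ofUnits_apply]
    conv_rhs => rw [hb1]
    simp only [Fin.sum_univ_two, Matrix.of_apply, add_mul, mul_add, hterm]
    abel
  have hΨinj : Function.Injective Ψ := by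
    rw [injective_iff_map_eq_zero]
    intro M hM
    have hentry : ∀ i j, M i j • e₁ = 0 := by
      intro i j
      have h1 : E' 0 i * Ψ M * E' j 0 = M i j • e₁ := by
        show E' 0 i * ofUnits E' hE' M * E' j 0 = M i j • e₁
        rw [ofUnits_apply]
        simp only [Fin.sum_univ_two, mul_add, add_mul, mul_smul_comm, smul_mul_assoc, hmulE]
        fin_cases i <;> fin_cases j <;> simp [he₁def, hmulE]
      rw [← h1, hM, mul_zero, zero_mul]
    ext i j
    show M i j = 0
    apply hfaith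
    intro x
    have hx : x = e₁ x + E' 1 0 (E' 0 1 x) := by
      have h1 : (1 : Module.End A X) = e₁ + E' 1 0 * E' 0 1 := by
        rw [hmulE, if_pos rfl, he₁def]
        exact hE'.one.symm
      have h2' := congrArg (fun φ : Module.End A X => φ x) h1
      simpa using h2'
    have h01 : E' 0 1 x = e₁ (E' 0 1 x) := by
      have h1 : E' 0 1 = e₁ * E' 0 1 := by rw [he₁def, hmulE, if_pos rfl]
      exact congrArg (fun φ : Module.End A X => φ x) h1
    have hz : ∀ y, M i j • e₁ y = 0 := fun y => by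
      have h1 := congrArg (fun φ : Module.End A X => φ y) (hentry i j)
      simpa using h1
    rw [hx, smul_add, hz, zero_add, ← map_smul, h01, hz, map_zero]
  have haB : ∀ g, a g ∈ B := fun g => Algebra.subset_adjoin ⟨g, rfl⟩
  choose r hr using fun g => hΨsurj (a g) (haB g)
  let ρ : G →* Matrix (Fin 2) (Fin 2) A :=
    { toFun := r
      map_one' := hΨinj (by rw [hr, map_one, map_one])
      map_mul' := fun g h => hΨinj (by rw [hr, map_mul, map_mul, hr, hr]) }
  have hρ : ∀ g, Ψ (ρ g) = a g := hr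
  let yF : (G →₀ A) →ₗ[A] Matrix (Fin 2) (Fin 2) A :=
    Finsupp.linearCombination A (fun g => ρ g)
  have hyF : ∀ u, Ψ (yF u) = act a u := by
    intro u
    induction u using Finsupp.induction_linear with
    | zero => simp
    | add u v hu hv => rw [map_add, map_add, map_add, hu, hv]
    | single g c => simp only [yF, Finsupp.linearCombination_single, map_smul, hρ, act_single]
  have hyF_surj : Function.Surjective yF := by
    intro M
    have hMB : Ψ M ∈ B := by
      show ofUnits E' hE' M ∈ B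
      rw [ofUnits_apply]
      exact Subalgebra.sum_mem _ fun i _ => Subalgebra.sum_mem _ fun j _ =>
        Subalgebra.smul_mem _ (hE'B i j) _
    obtain ⟨u, hu⟩ := (hBmem _).mp hMB
    exact ⟨u, hΨinj (by rw [hyF, hu])⟩
  have hspanρ : Submodule.span A (Set.range ρ) = ⊤ := by
    rw [← Finsupp.range_linearCombination]
    exact LinearMap.range_eq_top.mpr hyF_surj
  -- the trace of `ρ` is `τ`
  have hpol : ∀ u v : G →₀ A, ∃ c : A,
      (trF τ u - (yF u).trace) • yF v + (trF τ v - (yF v).trace) • yF u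
        = c • (1 : Matrix (Fin 2) (Fin 2) A) := by
    intro u v
    obtain ⟨c, hc⟩ := polarized_exists hδ hCH u v
    have h1 : yF u * yF v + yF v * yF u = trF τ u • yF v + trF τ v • yF u + c • 1 := by
      apply hΨinj
      simp only [map_add, map_mul, map_smul, map_one, hyF]
      exact hc
    have h2' := matrix_polarized (yF u) (yF v)
    refine ⟨((yF u * yF v).trace - (yF u).trace * (yF v).trace) - c, ?_⟩
    linear_combination (norm := module) h2' - h1
  obtain ⟨v₀, hv₀⟩ := hyF_surj (Matrix.single 0 1 1)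
  have htr0 : (Matrix.single (0 : Fin 2) (1 : Fin 2) (1 : A)).trace = 0 :=
    Matrix.trace_single_eq_of_ne 0 1 (1 : A) (by decide)
  have hε₀ : trF τ v₀ = 0 := by
    obtain ⟨c, hc⟩ := hpol v₀ v₀
    rw [hv₀, htr0, sub_zero] at hc
    have h01 := congrFun (congrFun hc 0) 1
    simp [Matrix.single] at h01
    have h3 : (2 : A) * trF τ v₀ = 0 := by linear_combination h01
    exact (h2.mul_right_eq_zero).mp h3
  have htrace : ∀ u, (yF u).trace = trF τ u := by
    intro u
    obtain ⟨c, hc⟩ := hpol u v₀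
    rw [hv₀, htr0, sub_zero, hε₀, zero_smul, add_zero] at hc
    have h01 := congrFun (congrFun hc 0) 1
    simp [Matrix.single] at h01
    exact (sub_eq_zero.mp h01).symm
  refine ⟨ρ, Ψ, hρ, hΨinj, hspanρ, fun g => ?_⟩
  have h := htrace (Finsupp.single g 1)
  simpa [yF, trF_single] using h

/-- If the action of `G` on a finitely generated faithful `A`-module `X` extends to the matrix
algebra through `ρ : G → GL₂(A)`, then `A²` (with the action `ρ`) embeds `G`-equivariantly into
a finite power of `X`. -/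
theorem exists_equivariant_embedding_of_algHom (ρ : G →* Matrix (Fin 2) (Fin 2) A)
    (a : G →* Module.End A X) (Ψ : Matrix (Fin 2) (Fin 2) A →ₐ[A] Module.End A X)
    (hΨ : ∀ g, Ψ (ρ g) = a g) [Module.Finite A X]
    (hfaith : ∀ c : A, (∀ x : X, c • x = 0) → c = 0) :
    ∃ (r : ℕ) (ι : (Fin 2 → A) →ₗ[A] (Fin r → X)), Function.Injective ι ∧
      ∀ (g : G) (w : Fin 2 → A) (k : Fin r), ι ((ρ g).mulVec w) k = a g (ι w k) := by
  obtain ⟨X₀, Φ, hΦ⟩ : ∃ (X₀ : Submodule A X) (Φ : (Fin 2 → X₀) ≃ₗ[A] X),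
      ∀ (g : G) (v : Fin 2 → X₀), a g (Φ v) = Φ (fun i => ∑ j, ρ g i j • v j) :=
    ⟨BLR.part Ψ, BLR.moritaEquiv Ψ, fun g v => by rw [← hΨ g, BLR.psi_moritaEquiv]⟩
  have hfin : Module.Finite A X₀ :=
    Module.Finite.of_surjective ((LinearMap.proj 0 : (Fin 2 → X₀) →ₗ[A] X₀).comp Φ.symm.toLinearMap)
      (fun y => ⟨Φ (fun _ => y), by simp⟩)
  obtain ⟨r, s, hs⟩ := Module.Finite.exists_fin (R := A) (M := X₀)
  have hfaith0 : ∀ c : A, (∀ y : X₀, c • y = 0) → c = 0 := by
    intro c hc
    apply hfaith c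
    intro x
    obtain ⟨v, rfl⟩ := Φ.surjective x
    rw [← map_smul]
    have h0 : c • v = 0 := by
      funext i
      exact hc (v i)
    rw [h0, map_zero]
  let ι : (Fin 2 → A) →ₗ[A] (Fin r → X) :=
    { toFun := fun w k => Φ (fun i => w i • s k)
      map_add' := fun w w' => by
        funext k
        simp only [Pi.add_apply, add_smul]
        rw [← map_add]
        rfl
      map_smul' := fun c w => by
        funext k
        simp only [Pi.smul_apply, smul_eq_mul, RingHom.id_apply, mul_smul]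
        rw [← map_smul]
        rfl }
  refine ⟨r, ι, ?_, ?_⟩
  · rw [← LinearMap.ker_eq_bot, LinearMap.ker_eq_bot']
    intro w hw
    funext i
    apply hfaith0
    intro y
    have hy : y ∈ Submodule.span A (Set.range s) := by rw [hs]; trivial
    induction hy using Submodule.span_induction with
    | mem x hx =>
      obtain ⟨k, rfl⟩ := hx
      have h1 : Φ (fun i => w i • s k) = 0 := congrFun hw k
      have h2' := Φ.injective (h1.trans (map_zero Φ).symm)
      exact congrFun h2' i
    | zero => exact smul_zero _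
    | add x y _ _ hx hy => rw [smul_add, hx, hy, add_zero]
    | smul c x _ hx => rw [smul_comm, hx, smul_zero]
  · intro g w k
    change Φ (fun i => (ρ g).mulVec w i • s k) = a g (Φ (fun i => w i • s k))
    rw [hΦ]
    congr 1
    funext i
    simp only [Matrix.mulVec, dotProduct, Finset.sum_smul, mul_smul]

end Main

end Fermat.Agent.Lib.GalRep.BLRLift
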